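import Fermat.Agent.TW.LocalKummer

/-!
# Units near `1`, their `p`-th powers, and logarithms with respect to `ζ`
-/

set_option autoImplicit false
set_option linter.unusedSectionVars false

open IsDedekindDomain NumberField WithZero

noncomputable section

namespace FLTAgent.TW

variable {p : ℕ} [hpf : Fact p.Prime] {F : Type} [Field F] [NumberField F] {ζ : F}
  (hζ : IsPrimitiveRoot ζ p) (v : Ext.Place F)

theorem le_exp_pred_of_lt_exp {x : ℤᵐ⁰} {m : ℤ} (h : x < exp m) : x ≤ exp (m - 1) := by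
  rcases eq_or_ne x 0 with rfl | hx
  · exact zero_le
  · rw [← exp_log hx, exp_lt_exp] at h
    rw [← exp_log hx, exp_le_exp]
    omega

include hζ in
theorem thr_eq_natCast_mul : Ext.thr hζ v = v.valuation F (p : F) * v.valuation F (ζ - 1) := by
  rw [Ext.thr, Ext.valuation_natCast_eq hζ v, ← pow_succ, Nat.sub_add_cancel hpf.out.one_le]

theorem natCast_valuation_ne_zero : v.valuation F (p : F) ≠ 0 := by
  simp [hpf.out.ne_zero]

include hζ in
/-- The linear term dominates. -/
theorem valuation_one_add_pow_sub {b : F} (hb : v.valuation F b < v.valuation F (ζ - 1))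
    (hb0 : b ≠ 0) :
    v.valuation F ((1 + b) ^ p - 1 - p * b) < v.valuation F (p * b) := by
  have hp2 := hpf.out.two_le
  have hb1 : v.valuation F b < 1 := hb.trans_le (Ext.valuation_sub_one_le hζ v)
  have hvb : 0 < v.valuation F b := zero_lt_iff.mpr (by simpa using hb0)
  have e : (1 + b) ^ p - 1 - p * b =
      ∑ i ∈ Finset.Ico 2 (p + 1), b ^ i * (p.choose i : F) := by
    have h := add_pow b 1 p
    simp only [one_pow, mul_one] at h
    rw [Finset.range_eq_Ico, Finset.sum_eq_sum_Ico_succ_bot (by omega),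
      Finset.sum_eq_sum_Ico_succ_bot (by omega)] at h
    rw [add_comm 1 b, h]
    simp
    ring
  rw [e]
  have hnz : v.valuation F ((p : F) * b) ≠ 0 := by simp [hb0, hpf.out.ne_zero]
  refine Valuation.map_sum_lt _ hnz fun i hi => ?_
  rw [Finset.mem_Ico] at hi
  rw [map_mul, map_pow, map_mul, mul_comm (v.valuation F (p : F))]
  rcases lt_or_eq_of_le (Nat.le_of_lt_succ hi.2) with hip | rfl
  · obtain ⟨c, hc⟩ := Nat.Prime.dvd_choose_self hpf.out (by omega) hip
    rw [hc, Nat.cast_mul, map_mul]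
    refine lt_of_le_of_lt (mul_le_mul' le_rfl (mul_le_of_le_one_right'
      (Ext.valuation_natCast_le_one v c))) ?_
    refine mul_lt_mul_of_pos_right ?_ (zero_lt_iff.mpr (natCast_valuation_ne_zero (p := p) v))
    exact pow_lt_self_of_lt_one₀ hvb hb1 (by omega)
  · rw [Nat.choose_self, Nat.cast_one, map_one, mul_one, Ext.valuation_natCast_eq hζ v]
    rw [show v.valuation F b ^ i = v.valuation F b * v.valuation F b ^ (i - 1) by
      rw [← pow_succ', Nat.sub_add_cancel (by omega)]]
    exact mul_lt_mul_of_pos_left (pow_lt_pow_left₀ hb zero_le (by omega)) hvb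

include hζ in
theorem valuation_one_add_pow {b : F} (hb : v.valuation F b < v.valuation F (ζ - 1)) :
    v.valuation F ((1 + b) ^ p - 1) = v.valuation F (p : F) * v.valuation F b := by
  rcases eq_or_ne b 0 with rfl | hb0
  · simp
  · rw [← map_mul, show (1 + b) ^ p - 1 = p * b + ((1 + b) ^ p - 1 - p * b) by ring]
    exact Valuation.map_add_eq_of_lt_left _ (valuation_one_add_pow_sub hζ v hb hb0)

include hζ in
/-- Hensel's lemma for `p`-th roots. -/
theorem exists_pow_close {u : F} (hu : v.valuation F (u - 1) < Ext.thr hζ v) (n : ℕ) :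
    ∃ y : F, v.valuation F y = 1 ∧ v.valuation F (u / y ^ p - 1) < Ext.thr hζ v ∧
      v.valuation F (u / y ^ p - 1) ≤ exp (-(n : ℤ)) := by
  induction n with
  | zero =>
    refine ⟨1, map_one _, by simpa using hu, ?_⟩
    simpa [exp_zero] using hu.le.trans (Ext.thr_le_one hζ v)
  | succ n ih =>
    obtain ⟨y, hy, h1, h2⟩ := ih
    set a := u / y ^ p - 1 with ha
    rcases eq_or_ne a 0 with h0 | h0
    · exact ⟨y, hy, h1, by rw [← ha, h0, map_zero]; exact zero_le⟩
    have hp0 : (p : F) ≠ 0 := Nat.cast_ne_zero.mpr hpf.out.ne_zero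
    set b := a / p with hb
    have hbv : v.valuation F b < v.valuation F (ζ - 1) := by
      rw [hb, map_div₀, div_lt_iff₀ (zero_lt_iff.mpr (natCast_valuation_ne_zero (p := p) v)),
        mul_comm, ← thr_eq_natCast_mul hζ v]
      exact h1
    have hlt := valuation_one_add_pow_sub hζ v hbv (div_ne_zero h0 hp0)
    rw [show (p : F) * b = a by rw [hb]; field_simp] at hlt
    have hy1 : v.valuation F (1 + b) = 1 :=
      Valuation.map_one_add_of_lt _ (hbv.trans_le (Ext.valuation_sub_one_le hζ v))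
    have h1b : (1 + b) ≠ 0 := fun h => by simp [h] at hy1
    have hy0 : y ≠ 0 := fun h => by simp [h] at hy
    have e : u / (y * (1 + b)) ^ p - 1 = -((1 + b) ^ p - 1 - a) / (1 + b) ^ p := by
      rw [ha, mul_pow]
      field_simp
      ring
    have hnew : v.valuation F (u / (y * (1 + b)) ^ p - 1) < v.valuation F a := by
      rw [e, map_div₀, Valuation.map_neg, map_pow, hy1, one_pow, div_one]
      exact hlt
    refine ⟨y * (1 + b), by rw [map_mul, hy, hy1, one_mul], hnew.trans h1, ?_⟩
    have := le_exp_pred_of_lt_exp (hnew.trans_le h2)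
    rwa [Nat.cast_succ, neg_add, ← sub_eq_add_neg]

include hζ in
/-- A unit at `v` with a `p`-th power near `1` is near a power of `ζ`. -/
theorem exists_sub_pow_lt {u : F} (h : v.valuation F (u ^ p - 1) < Ext.thr hζ v) :
    ∃ a : ZMod p, v.valuation F (u - ζ ^ a.val) < v.valuation F (ζ - 1) := by
  obtain ⟨μ, hμ, hlt⟩ := exists_root_near hζ v h
  have : NeZero p := ⟨hpf.out.ne_zero⟩
  have hμ0 : μ ≠ 0 := fun h0 => by
    rw [h0, zero_pow hpf.out.ne_zero] at hμ
    exact zero_ne_one hμ
  obtain ⟨i, hi, he⟩ := hζ.eq_pow_of_pow_eq_one (ξ := μ⁻¹) (by rw [inv_pow, hμ, inv_one])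
  refine ⟨(i : ZMod p), ?_⟩
  rw [ZMod.val_natCast, Nat.mod_eq_of_lt hi, he, show u - μ⁻¹ = μ⁻¹ * (u * μ - 1) by
    field_simp, map_mul]
  have : v.valuation F μ⁻¹ = 1 := by
    rw [← he, map_pow, Ext.valuation_root_eq_one hζ v, one_pow]
  rwa [this, one_mul]

include hζ in
theorem zeta_pow_val_add (a b : ZMod p) : ζ ^ (a + b).val = ζ ^ a.val * ζ ^ b.val := by
  rw [← pow_add, ZMod.val_add, ← pow_eq_pow_mod _ hζ.pow_eq_one]

include hζ in
theorem sub_pow_lt_unique {u : F} {a b : ZMod p}
    (ha : v.valuation F (u - ζ ^ a.val) < v.valuation F (ζ - 1))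
    (hb : v.valuation F (u - ζ ^ b.val) < v.valuation F (ζ - 1)) : a = b := by
  by_contra hne
  have h := Valuation.map_sub_lt (v.valuation F) hb ha
  rw [show u - ζ ^ b.val - (u - ζ ^ a.val) = ζ ^ a.val - ζ ^ b.val by ring,
    show ζ ^ a.val = ζ ^ b.val * ζ ^ (a - b).val by rw [← zeta_pow_val_add hζ, add_sub_cancel],
    ← mul_sub_one, map_mul, map_pow, Ext.valuation_root_eq_one hζ v, one_pow, one_mul,
    Ext.valuation_pow_sub_one hζ v fun hd => hne (sub_eq_zero.mp ((ZMod.val_eq_zero _).mp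
      (Nat.eq_zero_of_dvd_of_lt hd (ZMod.val_lt _))))] at h
  exact lt_irrefl _ h

include hζ in
theorem sub_pow_lt_mul {u u' : F} {a b : ZMod p}
    (ha : v.valuation F (u - ζ ^ a.val) < v.valuation F (ζ - 1))
    (hb : v.valuation F (u' - ζ ^ b.val) < v.valuation F (ζ - 1)) :
    v.valuation F (u * u' - ζ ^ (a + b).val) < v.valuation F (ζ - 1) := by
  have h1 : ∀ c : ZMod p, v.valuation F (ζ ^ c.val) = 1 := fun c => by
    rw [map_pow, Ext.valuation_root_eq_one hζ v, one_pow]
  have hu' : v.valuation F u' = 1 := by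
    rw [show u' = ζ ^ b.val + (u' - ζ ^ b.val) by ring, Valuation.map_add_eq_of_lt_left, h1]
    rw [h1]
    exact hb.trans_le (Ext.valuation_sub_one_le hζ v)
  rw [zeta_pow_val_add hζ, show u * u' - ζ ^ a.val * ζ ^ b.val =
    (u - ζ ^ a.val) * u' + ζ ^ a.val * (u' - ζ ^ b.val) by ring]
  refine Valuation.map_add_lt _ ?_ ?_
  · rwa [map_mul, hu', mul_one]
  · rwa [map_mul, h1, one_mul]

end FLTAgent.TW
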