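import Fermat.Agent.TW.Counts.LocApprox
import Fermat.Agent.TW.SelmerCount
import Fermat.Agent.TW.PlaceActions

/-!
# The local Kummer group through units modulo a congruence subgroup

For a stable finite set `U` of places and a bound `γ` below the Kummer threshold, the group `B` of
units at `U` modulo the bound is finite, `B / p` is the part of valuation zero of the local Kummer
group, and `B[p]` maps onto the logarithms with respect to `ζ`.
-/

set_option autoImplicit false
set_option linter.unusedSectionVars false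

open IsDedekindDomain NumberField WithZero
open scoped Pointwise

noncomputable section

namespace FLTAgent.TW

variable {p : ℕ} [hpf : Fact p.Prime]

/-- Units at `v` congruent to `1` up to the bound `g`. -/
def nearUpTo {F : Type} [Field F] [NumberField F] (v : Ext.Place F) (g : ℤᵐ⁰) : Subgroup Fˣ where
  carrier := {u | v.valuation F (u : F) = 1 ∧ v.valuation F ((u : F) - 1) ≤ g}
  one_mem' := by simp
  mul_mem' := by
    intro a b ha hb
    simp only [Set.mem_ofPred_eq, Units.val_mul] at *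
    refine ⟨by simp [ha.1, hb.1], ?_⟩
    rw [show (a : F) * b - 1 = (a : F) * (b - 1) + (a - 1) by ring]
    refine Valuation.map_add_le _ ?_ ha.2
    rw [map_mul, ha.1, one_mul]
    exact hb.2
  inv_mem' := by
    intro a ha
    simp only [Set.mem_ofPred_eq] at *
    refine ⟨by simp [ha.1], ?_⟩
    have : ((a⁻¹ : Fˣ) : F) - 1 = -((a⁻¹ : Fˣ) : F) * ((a : F) - 1) := by
      simp [mul_sub]; ring
    rw [this, map_mul, Valuation.map_neg, Units.val_inv_eq_inv_val, map_inv₀, ha.1, inv_one,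
      one_mul]
    exact ha.2

theorem mem_nearUpTo {F : Type} [Field F] [NumberField F] {v : Ext.Place F} {g : ℤᵐ⁰} {u : Fˣ} :
    u ∈ nearUpTo v g ↔ v.valuation F (u : F) = 1 ∧ v.valuation F ((u : F) - 1) ≤ g := Iff.rfl

namespace KField

variable (S : KField p)

theorem valuation_zeta_sub_one_smul (c : S.C) (v : Ext.Place S.K) :
    (c • v).valuation S.K (S.ζ - 1) = v.valuation S.K (S.ζ - 1) := by
  have h1 : (c • v).valuation S.K (S.ζ - 1) =
      (c • v).valuation S.K (S.ζ ^ (S.eps c : ZMod p).val - 1) := by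
    refine (Ext.valuation_pow_sub_one S.hζ _ fun h => ?_).symm
    exact (S.eps c).ne_zero ((ZMod.val_eq_zero _).mp
      (Nat.eq_zero_of_dvd_of_lt h (ZMod.val_lt _)))
  rw [h1, ← S.act_zeta', ← map_one (S.act c), ← map_sub, S.valuation_smul, map_one]

theorem thr_smul (c : S.C) (v : Ext.Place S.K) :
    Ext.thr S.hζ (c • v) = Ext.thr S.hζ v := by
  rw [Ext.thr, Ext.thr, valuation_zeta_sub_one_smul]

/-- A stable finite set of places with a bound below the Kummer threshold. -/
structure LocLevel where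
  U : Finset (Ext.Place S.K)
  stable : ∀ (c : S.C), ∀ v ∈ (U : Set (Ext.Place S.K)), c • v ∈ (U : Set (Ext.Place S.K))
  γ : Ext.Place S.K → ℤᵐ⁰
  γ_ne : ∀ v, γ v ≠ 0
  γ_lt : ∀ v ∈ U, γ v < Ext.thr S.hζ v
  γ_smul : ∀ (c : S.C) v, γ (c • v) = γ v

namespace LocLevel

variable {S} (L : S.LocLevel)

/-- The places, with the action of `C`. -/
def Pl : Type := {v : Ext.Place S.K // v ∈ L.U}

instance : Fintype L.Pl := inferInstanceAs (Fintype {v : Ext.Place S.K // v ∈ L.U})

instance : MulAction S.C L.Pl where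
  smul c v := ⟨c • v.1, L.stable c v.1 v.2⟩
  one_smul v := Subtype.ext (one_smul S.C v.1)
  mul_smul c d v := Subtype.ext (mul_smul c d v.1)

@[simp] theorem coe_smul (c : S.C) (v : L.Pl) : (c • v).1 = c • v.1 := rfl

/-- The units at `U`. -/
def unitsU : AddSubgroup (Additive S.Kˣ) where
  carrier := {x | ∀ v ∈ L.U, v.valuation S.K ((Additive.toMul x : S.Kˣ) : S.K) = 1}
  zero_mem' v _ := by simp
  add_mem' := fun {a b} ha hb v hv => by
    rw [toMul_add, Units.val_mul, map_mul, ha v hv, hb v hv, one_mul]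
  neg_mem' := fun {a} ha v hv => by
    rw [toMul_neg, Units.val_inv_eq_inv_val, map_inv₀, ha v hv, inv_one]

/-- The congruence subgroup. -/
def nearU : AddSubgroup L.unitsU where
  carrier := {x | ∀ v ∈ L.U, (Additive.toMul (x : Additive S.Kˣ) : S.Kˣ) ∈ nearUpTo v (L.γ v)}
  zero_mem' _ _ := one_mem _
  add_mem' := fun ha hb v hv => mul_mem (ha v hv) (hb v hv)
  neg_mem' := fun ha v hv => inv_mem (ha v hv)

theorem unitsAct_mem : ∀ c, ∀ a ∈ L.unitsU, S.unitsAct c a ∈ L.unitsU := fun c a ha v hv => by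
  have h := ha _ (L.stable c⁻¹ v hv)
  rw [show ((Additive.toMul (S.unitsAct c a) : S.Kˣ) : S.K) = S.act c (Additive.toMul a : S.Kˣ)
      from rfl, ← smul_inv_smul c v, S.valuation_smul]
  exact h

/-- The action on units at `U`. -/
abbrev unitsUAct : S.C →* AddMonoid.End L.unitsU := subAct S.unitsAct L.unitsU L.unitsAct_mem

theorem nearUpTo_smul (c : S.C) {v : Ext.Place S.K} {u : S.Kˣ} (hu : u ∈ nearUpTo v (L.γ v)) :
    Units.map (S.act c).toRingHom.toMonoidHom u ∈ nearUpTo (c • v) (L.γ (c • v)) := by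
  rw [mem_nearUpTo, L.γ_smul,
    show ((Units.map (S.act c).toRingHom.toMonoidHom u : S.Kˣ) : S.K) = S.act c u from rfl]
  refine ⟨by rw [S.valuation_smul]; exact hu.1, ?_⟩
  rw [← map_one (S.act c), ← map_sub, S.valuation_smul]
  exact hu.2

theorem unitsUAct_mem : ∀ c, ∀ a ∈ L.nearU, L.unitsUAct c a ∈ L.nearU := fun c a ha v hv => by
  have h := L.nearUpTo_smul c (ha _ (L.stable c⁻¹ v hv))
  rwa [smul_inv_smul] at h

/-- Units at `U` modulo the congruence subgroup. -/
def B : Type := L.unitsU ⧸ L.nearU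

instance : AddCommGroup L.B := inferInstanceAs (AddCommGroup (L.unitsU ⧸ L.nearU))

/-- The projection to `B`. -/
def mkB : L.unitsU →+ L.B := QuotientAddGroup.mk' L.nearU

theorem mkB_surjective : Function.Surjective L.mkB := QuotientAddGroup.mk'_surjective _

theorem mkB_eq_zero_iff {a : L.unitsU} : L.mkB a = 0 ↔ a ∈ L.nearU :=
  QuotientAddGroup.eq_zero_iff a

theorem mkB_eq_iff {a b : L.unitsU} : L.mkB a = L.mkB b ↔ -a + b ∈ L.nearU :=
  QuotientAddGroup.eq

/-- The action on `B`. -/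
def BAct : S.C →* AddMonoid.End L.B := quotAct L.unitsUAct L.nearU L.unitsUAct_mem

theorem BAct_mkB (c : S.C) (a : L.unitsU) : L.BAct c (L.mkB a) = L.mkB (L.unitsUAct c a) := rfl

theorem exists_precision (v : Ext.Place S.K) : ∃ k : ℕ, exp (-(k : ℤ)) < L.γ v :=
  Ext.exists_exp_neg_le (zero_lt_iff.mpr (L.γ_ne v))

instance finite_B : Finite L.B := by
  choose k hk using L.exists_precision
  let R : L.unitsU →+ Π v : L.Pl, Additive ((𝓞 S.K) ⧸ v.1.asIdeal ^ k v.1)ˣ :=
    AddMonoidHom.mk' (fun x v => Additive.ofMul (Ext.resHom v.1 (k v.1)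
      ⟨Additive.toMul (x : Additive S.Kˣ), x.2 v.1 v.2⟩)) fun x y => funext fun v => by
        rw [Pi.add_apply, ← ofMul_mul, ← map_mul]
        rfl
  have hle : R.ker ≤ L.nearU := fun x hx v hv => by
    refine ⟨x.2 v hv, ?_⟩
    have h := (Ext.resHom_eq_one_iff v (k v) ⟨_, x.2 v hv⟩).mp
      (Additive.ofMul.injective (congrFun hx ⟨v, hv⟩))
    exact h.trans (hk v).le
  have : Finite (L.unitsU ⧸ R.ker) :=
    Finite.of_injective _ (QuotientAddGroup.kerLift_injective R)
  exact Finite.of_surjective (α := L.unitsU ⧸ R.ker) (β := L.B)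
    (QuotientAddGroup.lift R.ker L.mkB fun a ha => L.mkB_eq_zero_iff.mpr (hle ha))
    fun y => by
      obtain ⟨a, rfl⟩ := L.mkB_surjective y
      exact ⟨a, rfl⟩

/-- Gluing prescribed elements at the places of `U`. -/
theorem exists_glue (f : Ext.Place S.K → S.Kˣ) :
    ∃ Y : S.Kˣ, ∀ v ∈ L.U, Y / f v ∈ nearUpTo v (L.γ v) := by
  choose k hk using L.exists_precision
  obtain ⟨Y, hY⟩ := Ext.exists_units_approx L.U k f
  refine ⟨Y, fun v hv => ⟨?_, (hY v hv).le.trans (hk v).le⟩⟩
  have h1 : v.valuation S.K (((Y / f v : S.Kˣ) : S.K) - 1) < 1 :=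
    ((hY v hv).trans (hk v)).trans_le ((L.γ_lt v hv).le.trans (Ext.thr_le_one S.hζ v))
  simpa using Valuation.map_one_add_of_lt _ h1

theorem valuation_eq_of_div_mem {v : Ext.Place S.K} {g : ℤᵐ⁰} {Y y : S.Kˣ}
    (h : Y / y ∈ nearUpTo v g) : v.valuation S.K (Y : S.K) = v.valuation S.K (y : S.K) := by
  conv_lhs => rw [← div_mul_cancel Y y]
  rw [Units.val_mul, map_mul, h.1, one_mul]

theorem cls_eq_of_pow {x Y : S.Kˣ} : S.cls x = S.cls (x / Y ^ p) := by
  refine (toModP_eq_iff p).mpr ⟨Additive.ofMul Y, ?_⟩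
  rw [← ofMul_div, ← ofMul_pow]
  congr 1
  rw [div_div_self']

/-- From `B` to the local Kummer group. -/
def bToLoc : L.B →+ S.LocK (L.U : Set (Ext.Place S.K)) :=
  QuotientAddGroup.lift L.nearU
    ((((S.splitP (L.U : Set (Ext.Place S.K))).mkQ).toAddMonoidHom.comp (toModP p)).comp
      L.unitsU.subtype) (fun a ha => by
    refine AddMonoidHom.mem_ker.mpr ?_
    show Submodule.Quotient.mk (S.cls (Additive.toMul (a : Additive S.Kˣ))) = 0
    refine (Submodule.Quotient.mk_eq_zero _).mpr (S.cls_mem_splitP.mpr fun v hv => ?_)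
    exact Ext.near_le_splitSub S.hζ v (lt_of_le_of_lt (ha v hv).2 (L.γ_lt v hv)))

/-- From `B / p` to the local Kummer group. -/
def toLoc : ModP p L.B →ₗ[ZMod p] S.LocK (L.U : Set (Ext.Place S.K)) :=
  AddMonoidHom.toZModLinearMap p (QuotientAddGroup.lift (nsmulAddMonoidHom p : L.B →+ L.B).range
    L.bToLoc (by
      rintro _ ⟨b, rfl⟩
      refine AddMonoidHom.mem_ker.mpr ?_
      rw [nsmulAddMonoidHom_apply, map_nsmul, ← Nat.cast_smul_eq_nsmul (ZMod p)]
      simp))

theorem toLoc_mk (a : L.unitsU) :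
    L.toLoc (toModP p (L.mkB a)) =
      Submodule.Quotient.mk (S.cls (Additive.toMul (a : Additive S.Kˣ))) := rfl

theorem toLoc_injective : Function.Injective L.toLoc := by
  refine (injective_iff_map_eq_zero _).mpr fun b hb => ?_
  obtain ⟨b, rfl⟩ := toModP_surjective p b
  obtain ⟨a, rfl⟩ := L.mkB_surjective b
  rw [toLoc_mk, Submodule.Quotient.mk_eq_zero, S.cls_mem_splitP] at hb
  set x : S.Kˣ := Additive.toMul (a : Additive S.Kˣ) with hx
  choose k hk using L.exists_precision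
  have : ∀ v, ∃ z : S.Kˣ, v ∈ L.U →
      v.valuation S.K (z : S.K) = 1 ∧ x / z ^ p ∈ nearUpTo v (L.γ v) := fun v => by
    by_cases hv : v ∈ L.U
    · obtain ⟨y, hy⟩ := (Ext.mem_splitSub S.hζ).mp (hb v hv)
      obtain ⟨z, hz1, hz2, hz3⟩ := exists_pow_close S.hζ v hy (k v)
      have hz0 : z ≠ 0 := fun h => by simp [h] at hz1
      have hy1 : v.valuation S.K (y : S.K) = 1 := by
        refine Ext.eq_one_of_pow_eq_one hpf.out.ne_zero ?_
        have h1 := Ext.valuation_eq_one_of_near S.hζ hy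
        rw [Units.val_div_eq_div_val, map_div₀, a.2 v hv, one_div, inv_eq_one,
          Units.val_pow_eq_pow_val, map_pow] at h1
        exact h1
      refine ⟨y * Units.mk0 z hz0, fun _ => ⟨?_, ?_, ?_⟩⟩
      · rw [Units.val_mul, map_mul, hy1, Units.val_mk0, hz1, one_mul]
      · simp [x, a.2 v hv, hy1, hz1]
      · have e : ((x / (y * Units.mk0 z hz0) ^ p : S.Kˣ) : S.K) =
            ((x / y ^ p : S.Kˣ) : S.K) / z ^ p := by
          simp [mul_pow, div_mul_eq_div_div]
        rw [e]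
        exact hz3.trans (hk v).le
    · exact ⟨1, fun h => absurd h hv⟩
  choose z hz using this
  obtain ⟨Y, hY⟩ := L.exists_glue z
  have hYu : Additive.ofMul Y ∈ L.unitsU := fun v hv => by
    rw [toMul_ofMul, valuation_eq_of_div_mem (hY v hv), (hz v hv).1]
  refine (toModP_eq_zero_iff p).mpr ⟨L.mkB ⟨_, hYu⟩, ?_⟩
  rw [← map_nsmul, mkB_eq_iff]
  intro v hv
  show (Y ^ p)⁻¹ * x ∈ nearUpTo v (L.γ v)
  have e : (Y ^ p)⁻¹ * x = (x / z v ^ p) * ((Y / z v) ^ p)⁻¹ := by
    rw [div_pow, inv_div, div_mul_div_cancel, inv_mul_eq_div]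
  rw [e]
  exact mul_mem (hz v hv).2 (inv_mem (pow_mem (hY v hv) p))

/-- Valuations modulo `p` on the local Kummer group. -/
def toVal : S.LocK (L.U : Set (Ext.Place S.K)) →ₗ[ZMod p] (L.Pl → ZMod p) :=
  (S.splitP (L.U : Set (Ext.Place S.K))).liftQ (LinearMap.pi fun v : L.Pl => S.ordP v.1)
    fun a ha => by
      obtain ⟨x, rfl⟩ := S.cls_surjective a
      refine LinearMap.mem_ker.mpr (funext fun v => ?_)
      show S.ordP v.1 (S.cls x) = 0
      rw [S.ordP_cls, ZMod.intCast_zmod_eq_zero_iff_dvd]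
      exact Ext.dvd_ord_of_mem_splitSub S.hζ (S.cls_mem_splitP.mp ha v.1 v.2)

theorem toVal_mk (x : S.Kˣ) (v : L.Pl) :
    L.toVal (Submodule.Quotient.mk (S.cls x)) v = (Ext.ord v.1 (x : S.K) : ZMod p) := rfl

theorem exists_ord_eq (n : Ext.Place S.K → ℤ) :
    ∃ Y : S.Kˣ, ∀ v ∈ L.U, Ext.ord v (Y : S.K) = n v := by
  choose π hπ using fun v : Ext.Place S.K => Ext.exists_ord_eq_one v
  obtain ⟨Y, hY⟩ := L.exists_glue fun v => π v ^ n v
  refine ⟨Y, fun v hv => ?_⟩
  have h := congrArg WithZero.log (valuation_eq_of_div_mem (hY v hv))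
  have h2 : Ext.ord v ((π v ^ n v : S.Kˣ) : S.K) = n v := by
    rw [Units.val_zpow_eq_zpow_val, Ext.ord_zpow, hπ, mul_one]
  rw [← h2, Ext.ord, Ext.ord, h]

theorem toVal_surjective : Function.Surjective L.toVal := fun f => by
  classical
  obtain ⟨Y, hY⟩ := L.exists_ord_eq fun v => if h : v ∈ L.U then ((f ⟨v, h⟩).val : ℤ) else 0
  refine ⟨Submodule.Quotient.mk (S.cls Y), funext fun v => ?_⟩
  rw [toVal_mk, hY v.1 v.2, dif_pos v.2]
  simp

theorem exact_toLoc_toVal : Function.Exact L.toLoc L.toVal := fun b => by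
  obtain ⟨b, rfl⟩ := Submodule.Quotient.mk_surjective _ b
  obtain ⟨x, rfl⟩ := S.cls_surjective b
  constructor
  · intro h
    have hd : ∀ v ∈ L.U, (p : ℤ) ∣ Ext.ord v (x : S.K) := fun v hv => by
      have : (Ext.ord v (x : S.K) : ZMod p) = 0 := congrFun h (⟨v, hv⟩ : L.Pl)
      exact (ZMod.intCast_zmod_eq_zero_iff_dvd _ _).mp this
    obtain ⟨Y, hY⟩ := L.exists_ord_eq fun v => Ext.ord v (x : S.K) / p
    have hu : Additive.ofMul (x / Y ^ p) ∈ L.unitsU := fun v hv => by
      rw [toMul_ofMul, Ext.valuation_eq_one_iff_ord v (Units.ne_zero _), Units.val_div_eq_div_val,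
        Units.val_pow_eq_pow_val, Ext.ord_div v x.ne_zero (pow_ne_zero _ Y.ne_zero), Ext.ord_pow,
        hY v hv, Int.mul_ediv_cancel' (hd v hv), sub_self]
    refine ⟨toModP p (L.mkB ⟨_, hu⟩), ?_⟩
    rw [toLoc_mk, toMul_ofMul, ← cls_eq_of_pow]
  · rintro ⟨a, ha⟩
    obtain ⟨a, rfl⟩ := toModP_surjective p a
    rw [← ha]
    obtain ⟨a, rfl⟩ := L.mkB_surjective a
    refine funext fun v => ?_
    rw [toLoc_mk, toVal_mk,
      (Ext.valuation_eq_one_iff_ord v.1 (Units.ne_zero _)).mp (a.2 v.1 v.2), Int.cast_zero]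
    rfl

theorem finite_locK' : Finite (S.LocK (L.U : Set (Ext.Place S.K))) := by
  have : Finite (ModP p L.B) := Finite.of_surjective _ (toModP_surjective p)
  choose s hs using L.toVal_surjective
  refine Finite.of_surjective
    (fun q : ModP p L.B × (L.Pl → ZMod p) => L.toLoc q.1 + s q.2) fun b => ?_
  obtain ⟨a, ha⟩ := (L.exact_toLoc_toVal (b - s (L.toVal b))).mp (by
    rw [map_sub, hs, sub_self])
  exact ⟨(a, L.toVal b), by simp [ha]⟩

theorem toLoc_equivariant (c : S.C) (b : ModP p L.B) :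
    L.toLoc (modPRep p L.BAct c b) = locRep L.stable c (L.toLoc b) := by
  obtain ⟨b, rfl⟩ := toModP_surjective p b
  obtain ⟨a, rfl⟩ := L.mkB_surjective b
  rfl

theorem toVal_equivariant (c : S.C) (b : S.LocK (L.U : Set (Ext.Place S.K))) :
    L.toVal (locRep L.stable c b) = funRep p L.Pl c (L.toVal b) := by
  obtain ⟨b, rfl⟩ := Submodule.Quotient.mk_surjective _ b
  refine funext fun v => ?_
  show S.ordP v.1 (S.kpRep c b) = S.ordP (c⁻¹ • v.1) b
  rw [← S.ordP_smul c (c⁻¹ • v.1), smul_inv_smul]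

/-! ### Logarithms with respect to `ζ` on `B[p]` -/

theorem pow_mem_of_torP {x : L.unitsU} {b : TorP p L.B}
    (hx : L.mkB x = ofTorP p b) {v : Ext.Place S.K} (hv : v ∈ L.U) :
    v.valuation S.K (((Additive.toMul (x : Additive S.Kˣ) : S.Kˣ) : S.K) ^ p - 1) ≤ L.γ v := by
  have h : p • x ∈ L.nearU := by
    rw [← mkB_eq_zero_iff, map_nsmul, hx, nsmul_ofTorP]
  have h1 := (h v hv).2
  rwa [AddSubgroup.coe_nsmul, toMul_nsmul, Units.val_pow_eq_pow_val] at h1

theorem exists_dlog (b : TorP p L.B) (v : L.Pl) : ∃ a : ZMod p, ∀ x : L.unitsU,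
    L.mkB x = ofTorP p b →
      v.1.valuation S.K (((Additive.toMul (x : Additive S.Kˣ) : S.Kˣ) : S.K) - S.ζ ^ a.val) <
        v.1.valuation S.K (S.ζ - 1) := by
  obtain ⟨x, hx⟩ := L.mkB_surjective (ofTorP p b)
  obtain ⟨a, ha⟩ := exists_sub_pow_lt S.hζ v.1
    (lt_of_le_of_lt (L.pow_mem_of_torP hx v.2) (L.γ_lt v.1 v.2))
  refine ⟨a, fun y hy => ?_⟩
  have hn : -x + y ∈ L.nearU := L.mkB_eq_iff.mp (hx.trans hy.symm)
  have h0 : v.1.valuation S.K
      (((Additive.toMul ((-x + y : L.unitsU) : Additive S.Kˣ) : S.Kˣ) : S.K) -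
        S.ζ ^ (0 : ZMod p).val) < v.1.valuation S.K (S.ζ - 1) := by
    rw [ZMod.val_zero, pow_zero]
    refine (lt_of_le_of_lt (hn v.1 v.2).2 (L.γ_lt v.1 v.2)).trans_le ?_
    rw [thr_eq_natCast_mul S.hζ v.1]
    exact mul_le_of_le_one_left' (Ext.valuation_natCast_le_one _ _)
  have h := sub_pow_lt_mul S.hζ v.1 ha h0
  rw [add_zero, ← Units.val_mul, ← toMul_add, ← AddSubgroup.coe_add, add_neg_cancel_left] at h
  exact h

/-- The logarithm with respect to `ζ` at each place. -/
def dlogFun (b : TorP p L.B) : L.Pl → ZMod p := fun v => (L.exists_dlog b v).choose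

theorem dlogFun_eq {b : TorP p L.B} {v : L.Pl} {x : L.unitsU}
    (hx : L.mkB x = ofTorP p b) {a : ZMod p}
    (ha : v.1.valuation S.K (((Additive.toMul (x : Additive S.Kˣ) : S.Kˣ) : S.K) - S.ζ ^ a.val) <
      v.1.valuation S.K (S.ζ - 1)) : L.dlogFun b v = a :=
  sub_pow_lt_unique S.hζ v.1 ((L.exists_dlog b v).choose_spec x hx) ha

/-- The logarithm as a linear map. -/
def dlog : TorP p L.B →ₗ[ZMod p] (L.Pl → ZMod p) :=
  AddMonoidHom.toZModLinearMap p (AddMonoidHom.mk' L.dlogFun fun b b' => funext fun v => by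
    obtain ⟨x, hx⟩ := L.mkB_surjective (ofTorP p b)
    obtain ⟨y, hy⟩ := L.mkB_surjective (ofTorP p b')
    refine L.dlogFun_eq (x := x + y) (by rw [map_add, hx, hy, map_add]) ?_
    rw [AddSubgroup.coe_add, toMul_add, Units.val_mul, Pi.add_apply]
    exact sub_pow_lt_mul S.hζ v.1 ((L.exists_dlog b v).choose_spec x hx)
      ((L.exists_dlog b' v).choose_spec y hy))

theorem dlog_apply (b : TorP p L.B) : L.dlog b = L.dlogFun b := rfl

theorem dlog_surjective : Function.Surjective L.dlog := fun f => by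
  classical
  have hz : S.ζ ≠ 0 := S.hζ.ne_zero hpf.out.ne_zero
  let w : Ext.Place S.K → S.Kˣ := fun v =>
    if h : v ∈ L.U then Units.mk0 S.ζ hz ^ (f ⟨v, h⟩).val else 1
  obtain ⟨Y, hY⟩ := L.exists_glue w
  have hw1 : ∀ v : Ext.Place S.K, v.valuation S.K (w v : S.K) = 1 := fun v => by
    by_cases h : v ∈ L.U <;> simp [w, h, Ext.valuation_root_eq_one S.hζ v]
  have hwp : ∀ v : Ext.Place S.K, w v ^ p = 1 := fun v => by
    by_cases h : v ∈ L.U
    · simp only [w, dif_pos h]
      rw [← pow_mul, mul_comm, pow_mul,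
        show Units.mk0 S.ζ hz ^ p = 1 from Units.ext (by simp [S.hζ.pow_eq_one]), one_pow]
    · simp [w, h]
  have hYu : Additive.ofMul Y ∈ L.unitsU := fun v hv => by
    rw [toMul_ofMul, valuation_eq_of_div_mem (hY v hv), hw1]
  obtain ⟨b, hb⟩ := exists_ofTorP p (a := L.mkB ⟨_, hYu⟩) (by
    rw [← map_nsmul, mkB_eq_zero_iff]
    intro v hv
    show Y ^ p ∈ nearUpTo v (L.γ v)
    have := pow_mem (hY v hv) p
    rwa [div_pow, hwp, div_one] at this)
  refine ⟨b, funext fun v => ?_⟩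
  refine L.dlogFun_eq hb.symm ?_
  have h := (hY v.1 v.2).2
  have e : ((Y : S.Kˣ) : S.K) - S.ζ ^ (f v).val = (w v.1 : S.K) * (((Y / w v.1 : S.Kˣ) : S.K) - 1) := by
    rw [show S.ζ ^ (f v).val = (w v.1 : S.K) by simp [w, v.2], mul_sub, mul_one,
      Units.val_div_eq_div_val, mul_div_cancel₀ _ (Units.ne_zero _)]
  rw [toMul_ofMul, e, map_mul, hw1, one_mul]
  refine (lt_of_le_of_lt h (L.γ_lt v.1 v.2)).trans_le ?_
  rw [thr_eq_natCast_mul S.hζ v.1]
  exact mul_le_of_le_one_left' (Ext.valuation_natCast_le_one _ _)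

/-- The twisted action on the logarithms. -/
def dlogRep : Representation (ZMod p) S.C (L.Pl → ZMod p) := twistRep S.eps (funRep p L.Pl)

theorem dlogRep_apply (c : S.C) (f : L.Pl → ZMod p) :
    L.dlogRep c f = (S.eps c : ZMod p) • funRep p L.Pl c f := by
  rw [dlogRep, twistRep_apply]
  rfl

theorem dlog_equivariant (c : S.C) (b : TorP p L.B) :
    L.dlog (torPRep p L.BAct c b) = L.dlogRep c (L.dlog b) := by
  refine funext fun v => ?_
  rw [dlogRep_apply, Pi.smul_apply, funRep_apply, smul_eq_mul]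
  obtain ⟨x, hx⟩ := L.mkB_surjective (ofTorP p b)
  refine L.dlogFun_eq (x := L.unitsUAct c x) ?_ ?_
  · show _ = L.BAct c (ofTorP p b)
    rw [← hx]
    rfl
  have h := (L.exists_dlog b (c⁻¹ • v)).choose_spec x hx
  have hz : S.ζ ^ ((S.eps c : ZMod p) * L.dlog b (c⁻¹ • v)).val =
      S.act c (S.ζ ^ (L.dlog b (c⁻¹ • v)).val) := by
    rw [map_pow, S.act_zeta', ← pow_mul, ZMod.val_mul, ← pow_eq_pow_mod _ S.hζ.pow_eq_one]
  rw [hz, show ((Additive.toMul ((L.unitsUAct c x : L.unitsU) : Additive S.Kˣ) : S.Kˣ) : S.K) =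
      S.act c ((Additive.toMul (x : Additive S.Kˣ) : S.Kˣ) : S.K) from rfl, ← map_sub]
  conv => congr <;> rw [← smul_inv_smul c v.1]
  rw [S.valuation_smul, valuation_zeta_sub_one_smul]
  exact h

variable {k : Type} [Field k] [Algebra (ZMod p) k]
variable {W : Type} [AddCommGroup W] [Module k W] [Module (ZMod p) W] [IsScalarTower (ZMod p) k W]
  [Finite W]

theorem finrank_eqFun_pl (ρ : Representation k S.C W) :
    Module.finrank k (eqFun ρ L.Pl) = Module.finrank k ↥(eqFun ρ (Ext.Place S.K) ⊓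
      ⨅ v ∈ (L.U : Set (Ext.Place S.K))ᶜ, LinearMap.ker (LinearMap.proj v)) := by
  classical
  refine LinearEquiv.finrank_eq
    { toFun := fun T => ⟨fun v => if h : v ∈ L.U then T.1 ⟨v, h⟩ else 0, ?_⟩
      map_add' := fun T T' => Subtype.ext (funext fun v => by
        by_cases h : v ∈ L.U <;> simp [h])
      map_smul' := fun t T => Subtype.ext (funext fun v => by
        by_cases h : v ∈ L.U <;> simp [h])
      invFun := fun T => ⟨fun v => T.1 v.1, fun c v => (Submodule.mem_inf.mp T.2).1 c v.1⟩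
      left_inv := fun T => Subtype.ext (funext fun v => dif_pos v.2)
      right_inv := fun T => Subtype.ext (funext fun v => ?_) }
  · refine Submodule.mem_inf.mpr ⟨fun c v => ?_, ?_⟩
    · by_cases h : v ∈ L.U
      · have h' : c • v ∈ L.U := L.stable c v h
        simp only [dif_pos h, dif_pos h']
        exact T.2 c ⟨v, h⟩
      · have h' : c • v ∉ L.U := fun hc => h (by simpa using L.stable c⁻¹ _ hc)
        simp only [dif_neg h, dif_neg h', map_zero]
    · simp only [Submodule.mem_iInf, LinearMap.mem_ker, LinearMap.proj_apply]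
      intro v hv
      exact dif_neg hv
  · show (if h : v ∈ L.U then T.1 v else 0) = T.1 v
    split_ifs with h
    · rfl
    · have := (Submodule.mem_inf.mp T.2).2
      simp only [Submodule.mem_iInf, LinearMap.mem_ker, LinearMap.proj_apply] at this
      exact (this v h).symm

/-- The count of the local Kummer group: valuations plus `B[p]`. -/
theorem cnt_locRep {ρ : Representation k S.C W} (hρ : IsRelProj ρ) :
    cnt ρ (locRep L.stable) =
      Module.finrank k (eqFun ρ L.Pl) + cnt ρ (torPRep p L.BAct) := by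
  classical
  have := L.finite_locK'
  rw [cnt_eq_add hρ L.toLoc L.toVal L.toLoc_equivariant L.toVal_equivariant L.toLoc_injective
    L.toVal_surjective L.exact_toLoc_toVal, cnt_funRep, add_comm]
  congr 1
  have h := xi_of_finite (p := p) hρ L.BAct
  rw [xi, sub_eq_zero] at h
  exact_mod_cast h

/-- The count of the image of the logarithm. -/
theorem cnt_dlogRep (ρ : Representation k S.C W) :
    cnt ρ L.dlogRep = Module.finrank k (eqFun (twistRep S.eps ρ) L.Pl) := by
  classical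
  rw [cnt_twist (ρ' := twistRep S.eps ρ) (σ := funRep p L.Pl) S.eps L.dlogRep_apply
    (fun c w => by rw [twistRep_apply, algebraMap_smul]), cnt_funRep]

theorem mem_ker_dlog {b : TorP p L.B} {x : L.unitsU}
    (hx : L.mkB x = ofTorP p b) (hb : L.dlog b = 0) {v : Ext.Place S.K}
    (hv : v ∈ L.U) :
    v.valuation S.K (p : S.K) *
      v.valuation S.K (((Additive.toMul (x : Additive S.Kˣ) : S.Kˣ) : S.K) - 1) ≤ L.γ v := by
  have h := (L.exists_dlog b ⟨v, hv⟩).choose_spec x hx
  rw [show (L.exists_dlog b ⟨v, hv⟩).choose = 0 from congrFun hb ⟨v, hv⟩, ZMod.val_zero,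
    pow_zero] at h
  rw [← valuation_one_add_pow S.hζ v h, add_sub_cancel]
  exact L.pow_mem_of_torP hx hv

end LocLevel

end KField

end FLTAgent.TW
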