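import Fermat.Agent.TW.Setting
import Mathlib.FieldTheory.Galois.NormalBasis
import Mathlib.NumberTheory.NumberField.Basic

/-!
# The ring of integers is isogenous to a free module over the group
-/

set_option autoImplicit false
set_option linter.unusedSectionVars false

open IsDedekindDomain NumberField

noncomputable section

namespace FLTAgent.TW

variable {p : ℕ} [hpf : Fact p.Prime]

/-- A free `C`-set with `r` orbits. -/
def FreeSet (C : Type) (r : ℕ) : Type := C × Fin r

instance {C : Type} [Fintype C] (r : ℕ) : Fintype (FreeSet C r) :=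
  inferInstanceAs (Fintype (C × Fin r))

instance {C : Type} [Group C] (r : ℕ) : MulAction C (FreeSet C r) where
  smul c x := (c * x.1, x.2)
  one_smul x := Prod.ext (one_mul x.1) rfl
  mul_smul c d x := Prod.ext (mul_assoc c d x.1) rfl

/-- A point of a free set. -/
def FreeSet.pt {C : Type} {r : ℕ} (d : C) (i : Fin r) : FreeSet C r := (d, i)

theorem freeSet_smul {C : Type} [Group C] {r : ℕ} (c d : C) (i : Fin r) :
    c • FreeSet.pt d i = FreeSet.pt (c * d) i := rfl

/-- Equivariant functions on a free set. -/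
theorem finrank_eqFun_free {k : Type} [Field k] [Algebra (ZMod p) k] {C : Type} [Group C]
    [Fintype C] {W : Type} [AddCommGroup W] [Module k W] [Module.Finite k W]
    (ρ : Representation k C W) (r : ℕ) :
    Module.finrank k (eqFun ρ (FreeSet C r)) = r * Module.finrank k W := by
  let ev : eqFun ρ (FreeSet C r) →ₗ[k] (Fin r → W) :=
    { toFun := fun T i => T.1 (FreeSet.pt 1 i)
      map_add' := fun _ _ => rfl
      map_smul' := fun _ _ => rfl }
  have hbij : Function.Bijective ev := by
    refine ⟨fun T T' h => Subtype.ext (funext fun x => ?_), fun w => ?_⟩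
    · have hx : x = x.1 • FreeSet.pt 1 x.2 := by
        rw [freeSet_smul, mul_one]
        rfl
      rw [hx, T.2, T'.2]
      exact congrArg (ρ x.1) (congrFun h x.2)
    · refine ⟨⟨fun x => ρ x.1 (w x.2), fun c x => ?_⟩, funext fun i => ?_⟩
      · show ρ (c * x.1) (w x.2) = _
        rw [map_mul]
        rfl
      · show ρ 1 (w i) = w i
        rw [map_one]
        rfl
  rw [(LinearEquiv.ofBijective ev hbij).finrank_eq, Module.finrank_pi_fintype, Finset.sum_const,
    Finset.card_univ, Fintype.card_fin, smul_eq_mul]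

namespace KField

variable (S : KField p)

/-- The action on the integers, as additive maps. -/
def intAct : S.C →* AddMonoid.End (𝓞 S.K) where
  toFun c := (RingOfIntegers.mapRingHom (S.act c).toRingHom).toAddMonoidHom
  map_one' := AddMonoidHom.ext fun x => RingOfIntegers.ext (by
    show S.act 1 (x : S.K) = _
    rw [map_one]; rfl)
  map_mul' c d := AddMonoidHom.ext fun x => RingOfIntegers.ext (by
    show S.act (c * d) (x : S.K) = _
    rw [map_mul]; rfl)

theorem coe_intAct (c : S.C) (x : 𝓞 S.K) : ((S.intAct c x : 𝓞 S.K) : S.K) = S.act c (x : S.K) :=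
  rfl

theorem act_injective : Function.Injective S.act := by
  refine (injective_iff_map_eq_one S.act).mpr fun c hc => ?_
  obtain ⟨h, rfl⟩ := S.π_surj c
  refine (S.π_ker h).mpr ((IntermediateField.mem_fixingSubgroup_iff _ _).mpr fun x hx => ?_)
  have := S.coe_act_π h ⟨x, hx⟩
  rw [hc] at this
  exact this.symm

/-- An orbit of integers which is a basis over `ℚ`. -/
theorem exists_orbit_basis : ∃ (r : ℕ) (θ : Fin r → 𝓞 S.K),
    r * Fintype.card S.C = Module.finrank ℚ S.K ∧
      LinearIndependent ℚ fun x : FreeSet S.C r => S.act x.1 (θ x.2 : S.K) := by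
  classical
  let : MulSemiringAction S.C S.K := MulSemiringAction.compHom S.K S.act
  have hfaith : FaithfulSMul S.C S.K :=
    ⟨fun {c d} h => S.act_injective (RingEquiv.ext fun x => h x)⟩
  let F := FixedPoints.subfield S.C S.K
  have : FiniteDimensional F S.K := inferInstance
  have : IsGalois F S.K := IsGalois.of_fixed_field S.K S.C
  have : FiniteDimensional ℚ F := FiniteDimensional.left ℚ F S.K
  let a := Module.finBasis ℚ F
  let e : S.C ≃* (S.K ≃ₐ[F] S.K) := FixedPoints.toAlgAutMulEquiv S.C S.K
  let nb := (IsGalois.normalBasis F S.K).reindex e.toEquiv.symm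
  let θ0 : S.K := IsGalois.normalBasis F S.K 1
  have hnb : ∀ c, nb c = S.act c θ0 := fun c => by
    rw [Module.Basis.reindex_apply, Equiv.symm_symm, IsGalois.normalBasis_apply]
    rfl
  let θ : Fin (Module.finrank ℚ F) → S.K := fun i => (a i : S.K) * θ0
  let b := a.smulTower nb
  have hb : ∀ (i : Fin (Module.finrank ℚ F)) (c : S.C), b (i, c) = S.act c (θ i) := fun i c => by
    rw [Module.Basis.smulTower_apply, hnb, map_mul]
    show (a i : S.K) * S.act c θ0 = _
    rw [show S.act c (a i : S.K) = (a i : S.K) from (a i).2 c]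
  obtain ⟨y, hy0, hy⟩ := exists_integral_multiples ℤ ℚ (L := S.K) (Finset.univ.image θ)
  refine ⟨Module.finrank ℚ F,
    fun i => ⟨y • θ i, hy _ (Finset.mem_image_of_mem _ (Finset.mem_univ i))⟩, ?_, ?_⟩
  · rw [Module.finrank_eq_card_basis b, Fintype.card_prod, Fintype.card_fin]
  · have hli : LinearIndependent ℚ fun x : FreeSet S.C (Module.finrank ℚ F) =>
        S.act x.1 (θ x.2) := by
      have h := b.linearIndependent.comp
        (fun x : FreeSet S.C (Module.finrank ℚ F) => (x.2, x.1))
        fun x x' h => Prod.ext (congrArg Prod.snd h) (congrArg Prod.fst h)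
      convert h using 1
      exact funext fun x => (hb x.2 x.1).symm
    have h2 := hli.units_smul fun _ => Units.mk0 (y : ℚ) (Int.cast_ne_zero.mpr hy0)
    convert h2 using 1
    funext x
    show S.act x.1 (y • θ x.2) = (y : ℚ) • S.act x.1 (θ x.2)
    rw [map_zsmul, Int.cast_smul_eq_zsmul]

variable {k : Type} [Field k] [Algebra (ZMod p) k]
variable {W : Type} [AddCommGroup W] [Module k W] [Module (ZMod p) W] [IsScalarTower (ZMod p) k W]
  [Finite W]

/-- The count of `𝓞 / p` is that of a free module. -/
theorem cnt_modP_intAct {ρ : Representation k S.C W} (hρ : IsRelProj ρ) :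
    Fintype.card S.C * cnt ρ (modPRep p S.intAct) =
      Module.finrank ℚ S.K * Module.finrank k W := by
  classical
  obtain ⟨r, θ, hr, hli⟩ := S.exists_orbit_basis
  let bθ : FreeSet S.C r → 𝓞 S.K := fun x => S.intAct x.1 (θ x.2)
  let f : (FreeSet S.C r → ℤ) →+ 𝓞 S.K := (Fintype.linearCombination ℤ bθ).toAddMonoidHom
  have hfdef : ∀ g, f g = ∑ x, g x • bθ x := fun g => Fintype.linearCombination_apply ℤ bθ g
  have hf : ∀ c g, f (funAct (C := S.C) (FreeSet S.C r) c g) = S.intAct c (f g) := fun c g => by
    rw [hfdef, hfdef, map_sum]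
    refine Fintype.sum_equiv (MulAction.toPerm c⁻¹) _ _ fun x => ?_
    rw [map_zsmul, MulAction.toPerm_apply]
    congr 1
    show S.intAct x.1 (θ x.2) = S.intAct c (S.intAct (c⁻¹ * x.1) (θ x.2))
    conv_lhs => rw [← mul_inv_cancel_left c x.1, map_mul]
    rfl
  have hliZ : LinearIndependent ℤ bθ := by
    have h : LinearIndependent ℤ ((Algebra.linearMap (𝓞 S.K) S.K).restrictScalars ℤ ∘ bθ) :=
      hli.restrict_scalars (fun a b h => by simpa using h)
    exact h.of_comp _
  have hinj : Function.Injective f :=
    fun g g' e => funext (Fintype.linearIndependent_iffₛ.mp hliZ g g' (by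
      rw [← hfdef, ← hfdef]; exact e))
  have hcard : Fintype.card (FreeSet S.C r) = Module.finrank ℤ (𝓞 S.K) := by
    rw [RingOfIntegers.rank, ← hr]
    exact (Fintype.card_prod _ _).trans (by rw [Fintype.card_fin, mul_comm])
  have : Finite f.ker := by
    rw [(AddMonoidHom.ker_eq_bot_iff f).mpr hinj]
    infer_instance
  have : Finite (𝓞 S.K ⧸ f.range) := by
    let R : Submodule ℤ (𝓞 S.K) := LinearMap.range (Fintype.linearCombination ℤ bθ)
    have hR : Module.finrank ℤ R = Module.finrank ℤ (𝓞 S.K) := by
      rw [LinearMap.finrank_range_of_inj hinj, Module.finrank_fintype_fun_eq_card, hcard]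
    have hq : Module.finrank ℤ (𝓞 S.K ⧸ R) = 0 := by
      have := R.finrank_quotient_add_finrank
      omega
    have : Finite (𝓞 S.K ⧸ R) := by
      have hfin : Module.Finite ℤ (𝓞 S.K ⧸ R) := inferInstance
      have : AddGroup.FG (𝓞 S.K ⧸ R) := Module.Finite.iff_addGroup_fg.mp hfin
      refine AddCommGroup.finite_of_fg_isAddTorsion _ fun a => ?_
      obtain ⟨m, hm, hma⟩ := Module.finrank_eq_zero_iff.mp hq a
      exact isOfFinAddOrder_iff_zsmul_eq_zero.mpr ⟨m, hm, hma⟩
    exact this
  have hW : Module.Finite k W := Module.Finite.of_finite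
  have hxi := xi_eq_of_isogeny (p := p) hρ f hf
  rw [xi_funAct (p := p), finrank_eqFun_free (p := p), xi] at hxi
  have htor : cnt ρ (torPRep p S.intAct) = 0 := by
    have : Subsingleton (TorP p (𝓞 S.K)) := ⟨fun x y => ofTorP_injective p (by
      have hx := nsmul_ofTorP p x
      have hy := nsmul_ofTorP p y
      simp only [smul_eq_zero] at hx hy
      rw [hx.resolve_left hpf.out.ne_zero, hy.resolve_left hpf.out.ne_zero])⟩
    have : Subsingleton (Module.Dual (ZMod p) (TorP p (𝓞 S.K))) :=
      ⟨fun a b => LinearMap.ext fun x => by rw [Subsingleton.elim x 0, map_zero, map_zero]⟩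
    have : Subsingleton (Module.Dual (ZMod p) (TorP p (𝓞 S.K)) →ₗ[ZMod p] W) :=
      ⟨fun a b => LinearMap.ext fun x => by rw [Subsingleton.elim x 0, map_zero, map_zero]⟩
    rw [cnt]
    exact Module.finrank_zero_of_subsingleton
  rw [htor, Nat.cast_zero, sub_zero, Nat.cast_inj] at hxi
  rw [← hxi, ← hr]
  ring

end KField

end FLTAgent.TW
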