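import Fermat.Agent.TW.Counts.LocLevel
import Fermat.Agent.TW.Counts.LocRegular

/-!
# The counts of the local Kummer groups
-/

set_option autoImplicit false
set_option linter.unusedSectionVars false

open IsDedekindDomain NumberField WithZero
open scoped Pointwise

noncomputable section

namespace FLTAgent.TW

variable {p : ℕ} [hpf : Fact p.Prime]

namespace KField

variable (S : KField p)

/-- The level one step below the Kummer threshold. -/
def thrLevel (P : Finset ℕ) : S.LocLevel where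
  U := S.placesOver P
  stable := S.placesOver_stable P
  γ v := Ext.thr S.hζ v * exp (-1 : ℤ)
  γ_ne v := mul_ne_zero (Ext.thr_pos S.hζ v).ne' exp_ne_zero
  γ_lt v _ := mul_lt_of_lt_one_right (Ext.thr_pos S.hζ v) (by
    rw [← exp_zero, exp_lt_exp]; norm_num)
  γ_smul c v := by rw [S.thr_smul]

/-- The local Kummer group at the places over a finite set of primes is finite. -/
theorem finite_locK (P : Finset ℕ) :
    Finite (S.LocK (S.placesOver P : Set (Ext.Place S.K))) :=
  (S.thrLevel P).finite_locK'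

variable {k : Type} [Field k] [Algebra (ZMod p) k]
variable {W : Type} [AddCommGroup W] [Module k W] [Module (ZMod p) W] [IsScalarTower (ZMod p) k W]
  [Finite W]

/-- Count of the local Kummer group at the places over a prime `l ≠ p`. -/
theorem cnt_locK_ne {ρ : Representation k S.C W} (hρ : IsRelProj ρ) {l : ℕ} (hl : l.Prime)
    (hlp : l ≠ p) :
    cnt ρ (locRep (S.placesOver_stable {l})) =
      Module.finrank k ↥(eqFun ρ (Ext.Place S.K) ⊓
        ⨅ v ∈ (S.placesOver {l} : Set (Ext.Place S.K))ᶜ, LinearMap.ker (LinearMap.proj v)) +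
      Module.finrank k ↥(eqFun (twistRep S.eps ρ) (Ext.Place S.K) ⊓
        ⨅ v ∈ (S.placesOver {l} : Set (Ext.Place S.K))ᶜ, LinearMap.ker (LinearMap.proj v)) := by
  let L := S.thrLevel {l}
  have hp1 : ∀ v ∈ L.U, v.valuation S.K (p : S.K) = 1 := fun v hv => by
    obtain ⟨m, hm, -, hmv⟩ := (S.mem_placesOver).mp hv
    rw [Finset.mem_singleton] at hm
    subst hm
    rw [show (p : S.K) = algebraMap (𝓞 S.K) S.K (p : 𝓞 S.K) by simp,
      HeightOneSpectrum.valuation_eq_one_iff_notMem]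
    exact fun h => hlp (eq_of_natCast_mem hl hpf.out v hmv h)
  have hinj : Function.Injective L.dlog := by
    refine (injective_iff_map_eq_zero _).mpr fun b hb => ofTorP_injective p ?_
    obtain ⟨x, hx⟩ := L.mkB_surjective (ofTorP p b)
    rw [map_zero, ← hx, L.mkB_eq_zero_iff]
    intro v hv
    have h := L.mem_ker_dlog hx hb hv
    rw [hp1 v hv, one_mul] at h
    exact ⟨x.2 v hv, h⟩
  have hloc : cnt ρ (locRep L.stable) =
      Module.finrank k (eqFun ρ L.Pl) + cnt ρ (torPRep p L.BAct) := L.cnt_locRep hρ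
  have hB : cnt ρ (torPRep p L.BAct) = cnt ρ L.dlogRep :=
    cnt_congr (LinearEquiv.ofBijective L.dlog ⟨hinj, L.dlog_surjective⟩) L.dlog_equivariant
  rw [hB, L.cnt_dlogRep ρ, L.finrank_eqFun_pl, L.finrank_eqFun_pl] at hloc
  exact hloc

theorem valuation_natCast_smul (c : S.C) (v : Ext.Place S.K) (n : ℕ) :
    (c • v).valuation S.K (n : S.K) = v.valuation S.K (n : S.K) := by
  conv_lhs => rw [← map_natCast (S.act c) n]
  exact S.valuation_smul c v _

theorem cube_lt_thr {v : Ext.Place S.K} (hv : v.valuation S.K (p : S.K) < 1) :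
    v.valuation S.K (p : S.K) ^ 3 < Ext.thr S.hζ v ∧
      v.valuation S.K (p : S.K) ^ 2 < v.valuation S.K (S.ζ - 1) := by
  have hpos : 0 < v.valuation S.K (p : S.K) :=
    zero_lt_iff.mpr (natCast_valuation_ne_zero (p := p) v)
  have hle : v.valuation S.K (p : S.K) ≤ v.valuation S.K (S.ζ - 1) := by
    rw [Ext.valuation_natCast_eq S.hζ v]
    exact pow_le_of_le_one zero_le (Ext.valuation_sub_one_le S.hζ v)
      (Nat.sub_ne_zero_of_lt hpf.out.one_lt)
  have h2 : v.valuation S.K (p : S.K) ^ 2 < v.valuation S.K (S.ζ - 1) :=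
    (pow_lt_self_of_lt_one₀ hpos hv one_lt_two).trans_le hle
  refine ⟨?_, h2⟩
  rw [thr_eq_natCast_mul S.hζ v, pow_succ']
  exact mul_lt_mul_of_pos_left h2 hpos

theorem valuation_lt_one_of_mem_placesOver {v : Ext.Place S.K} (hv : v ∈ S.placesOver {p}) :
    v.valuation S.K (p : S.K) < 1 := by
  obtain ⟨m, hm, -, hmv⟩ := (S.mem_placesOver).mp hv
  rw [Finset.mem_singleton] at hm
  subst hm
  rw [show (m : S.K) = algebraMap (𝓞 S.K) S.K (m : 𝓞 S.K) by simp,
    HeightOneSpectrum.valuation_lt_one_iff_mem]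
  exact hmv

/-- The level used over `p`. -/
def pLevel : S.LocLevel where
  U := S.placesOver {p}
  stable := S.placesOver_stable {p}
  γ v := v.valuation S.K (p : S.K) ^ 3
  γ_ne v := pow_ne_zero 3 (natCast_valuation_ne_zero (p := p) v)
  γ_lt v hv := (S.cube_lt_thr (S.valuation_lt_one_of_mem_placesOver hv)).1
  γ_smul c v := by rw [S.valuation_natCast_smul]

/-- `1 + p² x`, or junk. -/
def shiftUnit (x : 𝓞 S.K) : S.Kˣ :=
  if h : 1 + (p : S.K) ^ 2 * x = 0 then 1 else Units.mk0 _ h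

theorem valuation_shift {v : Ext.Place S.K} (hv : v ∈ S.pLevel.U) (x : 𝓞 S.K) :
    v.valuation S.K ((p : S.K) ^ 2 * x) ≤ v.valuation S.K (p : S.K) ^ 2 ∧
      v.valuation S.K (1 + (p : S.K) ^ 2 * x) = 1 ∧
      ((S.shiftUnit x : S.Kˣ) : S.K) = 1 + (p : S.K) ^ 2 * x := by
  have h1 : v.valuation S.K ((p : S.K) ^ 2 * x) ≤ v.valuation S.K (p : S.K) ^ 2 := by
    rw [map_mul, map_pow]
    exact mul_le_of_le_one_right' (Ext.valuation_coe_le_one v x)
  have h2 : v.valuation S.K (1 + (p : S.K) ^ 2 * x) = 1 :=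
    Valuation.map_one_add_of_lt _ (h1.trans_lt
      (pow_lt_one₀ zero_le (S.valuation_lt_one_of_mem_placesOver hv) two_ne_zero))
  refine ⟨h1, h2, ?_⟩
  have h0 : 1 + (p : S.K) ^ 2 * x ≠ 0 := fun h => by rw [h, map_zero] at h2; exact zero_ne_one h2
  rw [shiftUnit, dif_neg h0, Units.val_mk0]

theorem shiftUnit_mem (x : 𝓞 S.K) : Additive.ofMul (S.shiftUnit x) ∈ S.pLevel.unitsU :=
  fun v hv => by rw [toMul_ofMul, (S.valuation_shift hv x).2.2, (S.valuation_shift hv x).2.1]

/-- The class of `1 + p² x`. -/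
def shiftB : 𝓞 S.K →+ S.pLevel.B :=
  AddMonoidHom.mk' (fun x => S.pLevel.mkB ⟨_, S.shiftUnit_mem x⟩) fun x y => by
    rw [← map_add, S.pLevel.mkB_eq_iff]
    intro v hv
    obtain ⟨hx1, hx2, hx3⟩ := S.valuation_shift hv x
    obtain ⟨hy1, hy2, hy3⟩ := S.valuation_shift hv y
    obtain ⟨-, hs2, hs3⟩ := S.valuation_shift hv (x + y)
    show (S.shiftUnit (x + y))⁻¹ * (S.shiftUnit x * S.shiftUnit y) ∈ nearUpTo v (S.pLevel.γ v)
    rw [mem_nearUpTo, Units.val_mul, Units.val_inv_eq_inv_val, Units.val_mul, hx3, hy3, hs3]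
    refine ⟨by rw [map_mul, map_mul, map_inv₀, hs2, hx2, hy2, inv_one, one_mul, one_mul], ?_⟩
    have h0 : 1 + (p : S.K) ^ 2 * ((x + y : 𝓞 S.K) : S.K) ≠ 0 := fun h => by rw [h, map_zero] at hs2; exact zero_ne_one hs2
    have e : (1 + (p : S.K) ^ 2 * ((x + y : 𝓞 S.K) : S.K))⁻¹ *
        ((1 + (p : S.K) ^ 2 * x) * (1 + (p : S.K) ^ 2 * y)) - 1 =
        ((p : S.K) ^ 2 * x) * ((p : S.K) ^ 2 * y) *
          (1 + (p : S.K) ^ 2 * ((x + y : 𝓞 S.K) : S.K))⁻¹ := by
      field_simp
      push_cast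
      ring
    rw [e, map_mul, map_mul, map_inv₀, hs2, inv_one, mul_one]
    refine (mul_le_mul' hx1 hy1).trans ?_
    rw [← pow_add]
    exact pow_le_pow_right_of_le_one' (Ext.valuation_natCast_le_one v p) (by norm_num)

theorem shiftB_apply (x : 𝓞 S.K) :
    S.shiftB x = S.pLevel.mkB ⟨_, S.shiftUnit_mem x⟩ := rfl

theorem nsmul_shiftB (x : 𝓞 S.K) : p • S.shiftB x = 0 := by
  rw [shiftB_apply, ← map_nsmul, S.pLevel.mkB_eq_zero_iff]
  intro v hv
  obtain ⟨h1, h2, h3⟩ := S.valuation_shift hv x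
  show S.shiftUnit x ^ p ∈ nearUpTo v (S.pLevel.γ v)
  rw [mem_nearUpTo, Units.val_pow_eq_pow_val, h3]
  refine ⟨by rw [map_pow, h2, one_pow], ?_⟩
  rw [valuation_one_add_pow S.hζ v
    (h1.trans_lt (S.cube_lt_thr (S.valuation_lt_one_of_mem_placesOver hv)).2)]
  exact (mul_le_mul' le_rfl h1).trans (pow_succ' _ 2).ge

/-- `𝓞 / p` inside `B[p]`. -/
def shiftTor : ModP p (𝓞 S.K) →ₗ[ZMod p] TorP p S.pLevel.B :=
  AddMonoidHom.toZModLinearMap p
    (QuotientAddGroup.lift (nsmulAddMonoidHom p : 𝓞 S.K →+ 𝓞 S.K).range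
      (S.shiftB.codRestrict (nsmulAddMonoidHom p : S.pLevel.B →+ S.pLevel.B).ker S.nsmul_shiftB :
        𝓞 S.K →+ TorP p S.pLevel.B) (by
      rintro _ ⟨x, rfl⟩
      refine AddMonoidHom.mem_ker.mpr (ofTorP_injective p ?_)
      rw [map_zero]
      show S.shiftB (p • x) = 0
      rw [map_nsmul, nsmul_shiftB]))

theorem ofTorP_shiftTor (x : 𝓞 S.K) :
    ofTorP p (S.shiftTor (toModP p x)) = S.shiftB x := rfl

theorem valuation_natCast_eq_one_of_notMem {v : Ext.Place S.K} (hv : v ∉ S.pLevel.U) :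
    v.valuation S.K (p : S.K) = 1 := by
  rw [show (p : S.K) = algebraMap (𝓞 S.K) S.K (p : 𝓞 S.K) by simp,
    HeightOneSpectrum.valuation_eq_one_iff_notMem]
  exact fun h => hv ((S.mem_placesOver).mpr ⟨p, Finset.mem_singleton_self p, hpf.out, h⟩)

theorem shiftTor_injective : Function.Injective S.shiftTor := by
  refine (injective_iff_map_eq_zero _).mpr fun a ha => ?_
  obtain ⟨x, rfl⟩ := toModP_surjective p a
  have h0 : S.shiftB x = 0 := by rw [← S.ofTorP_shiftTor, ha, map_zero]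
  rw [shiftB_apply, S.pLevel.mkB_eq_zero_iff] at h0
  have hle : ∀ v : Ext.Place S.K, v.valuation S.K ((x : S.K) / p) ≤ 1 := fun v => by
    rw [map_div₀]
    refine div_le_one_of_le₀ ?_ zero_le
    by_cases hv : v ∈ S.pLevel.U
    · obtain ⟨-, -, h3⟩ := S.valuation_shift hv x
      have h := (h0 v hv).2
      rw [toMul_ofMul, h3, add_sub_cancel_left, map_mul, map_pow] at h
      change v.valuation S.K (p : S.K) ^ 2 * v.valuation S.K (x : S.K) ≤
        v.valuation S.K (p : S.K) ^ 3 at h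
      rw [pow_succ (v.valuation S.K (p : S.K)) 2] at h
      exact le_of_mul_le_mul_left h
        (pow_pos (zero_lt_iff.mpr (natCast_valuation_ne_zero (p := p) v)) 2)
    · rw [S.valuation_natCast_eq_one_of_notMem hv]
      exact Ext.valuation_coe_le_one v x
  obtain ⟨y, hy⟩ := HeightOneSpectrum.mem_integers_of_valuation_le_one S.K _ hle
  refine (toModP_eq_zero_iff p).mpr ⟨y, RingOfIntegers.ext ?_⟩
  show algebraMap (𝓞 S.K) S.K (p • y) = _
  rw [nsmul_eq_mul, map_mul, map_natCast, hy,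
    mul_div_cancel₀ _ (Nat.cast_ne_zero.mpr hpf.out.ne_zero)]

theorem exact_shiftTor_dlog : Function.Exact S.shiftTor S.pLevel.dlog := fun b => by
  constructor
  · intro hb
    obtain ⟨u, hu⟩ := S.pLevel.mkB_surjective (ofTorP p b)
    set uu : S.Kˣ := Additive.toMul (u : Additive S.Kˣ) with huu
    have hlow : ∀ v ∈ S.pLevel.U,
        v.valuation S.K ((uu : S.K) - 1) ≤ v.valuation S.K (p : S.K) ^ 2 := fun v hv => by
      have h := S.pLevel.mem_ker_dlog hu hb hv
      change _ ≤ v.valuation S.K (p : S.K) ^ 3 at h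
      rw [pow_succ' (v.valuation S.K (p : S.K)) 2] at h
      exact le_of_mul_le_mul_left h (zero_lt_iff.mpr (natCast_valuation_ne_zero (p := p) v))
    choose m hm using S.pLevel.exists_precision
    have hz : ∀ v : Ext.Place S.K, ∃ a : 𝓞 S.K, v ∈ S.pLevel.U →
        v.valuation S.K ((a : S.K) - ((uu : S.K) - 1) / (p : S.K) ^ 2) ≤ exp (-(m v : ℤ)) := by
      intro v
      by_cases hv : v ∈ S.pLevel.U
      · obtain ⟨a, ha⟩ := Ext.exists_integral_rep v (m v)
          (x := ((uu : S.K) - 1) / (p : S.K) ^ 2) (by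
            rw [map_div₀, map_pow]
            exact div_le_one_of_le₀ (hlow v hv) zero_le)
        exact ⟨a, fun _ => ha⟩
      · exact ⟨0, fun h => absurd h hv⟩
    choose a ha using hz
    obtain ⟨x, hx⟩ := IsDedekindDomain.exists_forall_sub_mem_ideal (R := 𝓞 S.K) (s := S.pLevel.U)
      (fun v => v.asIdeal) m (fun v _ => v.prime)
      (fun v _ w _ hvw h => hvw (HeightOneSpectrum.ext h)) (fun v => a v.1)
    refine ⟨toModP p x, ofTorP_injective p ?_⟩
    rw [ofTorP_shiftTor, shiftB_apply, ← hu, S.pLevel.mkB_eq_iff]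
    intro v hv
    obtain ⟨h1, h2, h3⟩ := S.valuation_shift hv x
    show (S.shiftUnit x)⁻¹ * uu ∈ nearUpTo v (S.pLevel.γ v)
    rw [mem_nearUpTo, Units.val_mul, Units.val_inv_eq_inv_val, h3]
    refine ⟨by rw [map_mul, map_inv₀, h2, inv_one, one_mul]; exact u.2 v hv, ?_⟩
    have h0 : 1 + (p : S.K) ^ 2 * (x : S.K) ≠ 0 := fun h => by rw [h, map_zero] at h2; exact zero_ne_one h2
    have e : (1 + (p : S.K) ^ 2 * (x : S.K))⁻¹ * (uu : S.K) - 1 =
        ((p : S.K) ^ 2 * ((((uu : S.K) - 1) / (p : S.K) ^ 2) - x)) *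
          (1 + (p : S.K) ^ 2 * (x : S.K))⁻¹ := by
      have hp0 : (p : S.K) ≠ 0 := Nat.cast_ne_zero.mpr hpf.out.ne_zero
      field_simp
      ring
    rw [e, map_mul, map_inv₀, h2, inv_one, mul_one, map_mul, map_pow]
    show _ ≤ v.valuation S.K (p : S.K) ^ 3
    refine le_trans ?_ (pow_succ (v.valuation S.K (p : S.K)) 2).ge
    refine mul_le_mul' le_rfl ?_
    have hd : v.valuation S.K (((x - a v : 𝓞 S.K)) : S.K) ≤ exp (-(m v : ℤ)) :=
      (Ext.valuation_le_exp_iff_mem v _ (m v)).mpr (hx v hv)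
    have hle : exp (-(m v : ℤ)) ≤ v.valuation S.K (p : S.K) :=
      (hm v).le.trans (pow_le_of_le_one zero_le (Ext.valuation_natCast_le_one v p) three_ne_zero)
    rw [show ((uu : S.K) - 1) / (p : S.K) ^ 2 - x =
      -(((a v : S.K) - ((uu : S.K) - 1) / (p : S.K) ^ 2) + ((x - a v : 𝓞 S.K) : S.K)) by
        push_cast; ring, Valuation.map_neg]
    exact Valuation.map_add_le _ ((ha v hv).trans hle) (hd.trans hle)
  · rintro ⟨a, rfl⟩
    obtain ⟨x, rfl⟩ := toModP_surjective p a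
    refine funext fun v => ?_
    rw [LocLevel.dlog_apply]
    refine S.pLevel.dlogFun_eq (x := ⟨_, S.shiftUnit_mem x⟩) (S.ofTorP_shiftTor x).symm ?_
    obtain ⟨h1, -, h3⟩ := S.valuation_shift v.2 x
    show v.1.valuation S.K ((S.shiftUnit x : S.K) - S.ζ ^ (0 : ZMod p).val) < _
    rw [h3, ZMod.val_zero, pow_zero, add_sub_cancel_left]
    exact h1.trans_lt (S.cube_lt_thr (S.valuation_lt_one_of_mem_placesOver v.2)).2

theorem shiftTor_equivariant (c : S.C) (a : ModP p (𝓞 S.K)) :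
    S.shiftTor (modPRep p S.intAct c a) = torPRep p S.pLevel.BAct c (S.shiftTor a) := by
  obtain ⟨x, rfl⟩ := toModP_surjective p a
  refine ofTorP_injective p ?_
  show S.shiftB (S.intAct c x) = S.pLevel.BAct c (S.shiftB x)
  rw [shiftB_apply, shiftB_apply, LocLevel.BAct_mkB, S.pLevel.mkB_eq_iff]
  intro v hv
  obtain ⟨-, h2, h3⟩ := S.valuation_shift hv (S.intAct c x)
  have hv' : c⁻¹ • v ∈ S.pLevel.U := S.pLevel.stable c⁻¹ v hv
  obtain ⟨-, -, h3'⟩ := S.valuation_shift hv' x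
  have e : Units.map (S.act c).toRingHom.toMonoidHom (S.shiftUnit x) = S.shiftUnit (S.intAct c x) :=
    Units.ext (by
      show S.act c (S.shiftUnit x : S.K) = _
      rw [h3', h3, coe_intAct, map_add, map_mul, map_pow, map_natCast, map_one])
  show (S.shiftUnit (S.intAct c x))⁻¹ *
      Units.map (S.act c).toRingHom.toMonoidHom (S.shiftUnit x) ∈ nearUpTo v (S.pLevel.γ v)
  rw [e, inv_mul_cancel]
  exact one_mem _

/-- Count of the local Kummer group at the places over `p`. -/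
theorem cnt_locK_p {ρ : Representation k S.C W} (hρ : IsRelProj ρ) :
    Fintype.card S.C * cnt ρ (locRep (S.placesOver_stable {p})) =
      Fintype.card S.C * (Module.finrank k ↥(eqFun ρ (Ext.Place S.K) ⊓
        ⨅ v ∈ (S.placesOver {p} : Set (Ext.Place S.K))ᶜ, LinearMap.ker (LinearMap.proj v))) +
      Fintype.card S.C * (Module.finrank k ↥(eqFun (twistRep S.eps ρ) (Ext.Place S.K) ⊓
        ⨅ v ∈ (S.placesOver {p} : Set (Ext.Place S.K))ᶜ, LinearMap.ker (LinearMap.proj v))) +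
      Module.finrank ℚ S.K * Module.finrank k W := by
  let L := S.pLevel
  have hloc : cnt ρ (locRep L.stable) =
      Module.finrank k (eqFun ρ L.Pl) + cnt ρ (torPRep p L.BAct) := L.cnt_locRep hρ
  have : Finite (TorP p L.B) := Finite.of_injective _ (ofTorP_injective p)
  have hB : cnt ρ (torPRep p L.BAct) = cnt ρ (modPRep p S.intAct) + cnt ρ L.dlogRep :=
    cnt_eq_add hρ S.shiftTor L.dlog S.shiftTor_equivariant L.dlog_equivariant S.shiftTor_injective
      L.dlog_surjective S.exact_shiftTor_dlog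
  rw [hB, L.cnt_dlogRep ρ, L.finrank_eqFun_pl, L.finrank_eqFun_pl] at hloc
  rw [← S.cnt_modP_intAct hρ]
  show Fintype.card S.C * cnt ρ (locRep L.stable) = _
  rw [hloc, mul_add, mul_add]
  exact (fun a m b => by ring : ∀ a m b : ℕ, a + (m + b) = a + b + m) _ _ _

end KField

end FLTAgent.TW
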