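import Fermat.Agent.TW.XiBasic

/-!
# `ξ` of trivial lattices and of stable subsets of a `C`-set
-/

set_option autoImplicit false
set_option linter.unusedSectionVars false

noncomputable section

namespace FLTAgent.TW

variable {p : ℕ} [Fact p.Prime] {k : Type} [Field k] [Algebra (ZMod p) k]
variable {C : Type} [Group C] [Fintype C]
variable {W : Type} [AddCommGroup W] [Module k W] [Module (ZMod p) W] [IsScalarTower (ZMod p) k W]
  [Finite W] {ρ : Representation k C W}

/-- A point with the trivial action of `C`. -/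
def Pt (_C : Type) : Type := PUnit

instance : Fintype (Pt C) := inferInstanceAs (Fintype PUnit)
instance : DecidableEq (Pt C) := inferInstanceAs (DecidableEq PUnit)
instance : MulAction C (Pt C) where
  smul _ x := x
  one_smul _ := rfl
  mul_smul _ _ _ := rfl

/-- The point. -/
def Pt.mk : Pt C := PUnit.unit

theorem finrank_eqFun_pt :
    Module.finrank k (eqFun ρ (Pt C)) = Module.finrank k ρ.invariants :=
  LinearEquiv.finrank_eq
    { toFun := fun T => ⟨T.1 (Pt.mk : Pt C), fun c => (T.2 c (Pt.mk : Pt C)).symm⟩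
      map_add' := fun _ _ => rfl
      map_smul' := fun _ _ => rfl
      invFun := fun w => ⟨fun _ => w.1, fun c _ => (w.2 c).symm⟩
      left_inv := fun _ => rfl
      right_inv := fun _ => rfl }

/-- A lattice of rank one with trivial action. -/
theorem xi_eq_invariants {A : Type} [AddCommGroup A] [AddGroup.FG A] (hρ : IsRelProj ρ)
    {α : C →* AddMonoid.End A} (f : A →+ ℤ) (hf : ∀ c a, f (α c a) = f a) [Finite f.ker]
    (h : f ≠ 0) : xi (p := p) ρ α = Module.finrank k ρ.invariants := by
  let g : A →+ (Pt C → ℤ) := AddMonoidHom.mk' (fun a _ => f a) fun a b => funext fun _ => map_add f a b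
  have hker : g.ker = f.ker := by
    ext a
    rw [AddMonoidHom.mem_ker, AddMonoidHom.mem_ker]
    exact ⟨fun h => congrFun h (Pt.mk : Pt C), fun h => funext fun _ => h⟩
  have : Finite g.ker := hker ▸ inferInstance
  obtain ⟨a₀, ha₀⟩ : ∃ a, f a ≠ 0 := by
    by_contra hcon
    push Not at hcon
    exact h (AddMonoidHom.ext hcon)
  have : AddGroup.FG (Pt C → ℤ) := Module.Finite.iff_addGroup_fg.mp inferInstance
  have : Finite ((Pt C → ℤ) ⧸ g.range) := by
    refine AddCommGroup.finite_of_fg_isAddTorsion _ fun x => ?_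
    rw [isOfFinAddOrder_iff_nsmul_eq_zero]
    refine ⟨(f a₀).natAbs, Int.natAbs_pos.mpr ha₀, ?_⟩
    induction x using QuotientAddGroup.induction_on with
    | H n =>
      rw [← QuotientAddGroup.mk_nsmul, QuotientAddGroup.eq_zero_iff]
      refine ⟨((f a₀).sign * n (Pt.mk : Pt C)) • a₀, funext fun i => ?_⟩
      show f (_ • a₀) = (f a₀).natAbs • n i
      rw [map_zsmul, smul_eq_mul, nsmul_eq_mul, mul_right_comm, Int.sign_mul_self_eq_natAbs]
      rfl
  rw [xi_eq_of_isogeny hρ g (β := funAct (C := C) (Pt C)) fun c a => funext fun _ => hf c a,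
    xi_funAct, finrank_eqFun_pt]

section subset

variable {Ω : Type} [MulAction C Ω]

/-- A stable subset as a `C`-set. -/
@[reducible] def subsetAction (T : Set Ω) (hT : ∀ (c : C), ∀ v ∈ T, c • v ∈ T) :
    MulAction C T where
  smul c v := ⟨c • v.1, hT c v.1 v.2⟩
  one_smul v := Subtype.ext (one_smul C v.1)
  mul_smul c d v := Subtype.ext (mul_smul c d v.1)

/-- Equivariant functions on a stable subset. -/
theorem finrank_eqFun_subset (T : Set Ω) (hT : ∀ (c : C), ∀ v ∈ T, c • v ∈ T) :
    letI := subsetAction T hT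
    Module.finrank k (eqFun ρ T) =
      Module.finrank k ↥(eqFun ρ Ω ⊓ ⨅ v ∈ Tᶜ, LinearMap.ker (LinearMap.proj v)) := by
  classical
  let := subsetAction T hT
  have hTc : ∀ (c : C) (v : Ω), c • v ∈ T ↔ v ∈ T := fun c v =>
    ⟨fun h => by simpa using hT c⁻¹ _ h, hT c v⟩
  refine LinearEquiv.finrank_eq
    { toFun := fun φ => ⟨fun v => if h : v ∈ T then φ.1 ⟨v, h⟩ else 0, fun c v => ?_, ?_⟩
      map_add' := fun a b => Subtype.ext (funext fun v => by
        show dite _ _ _ = _
        simp only [Submodule.coe_add, Pi.add_apply]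
        split_ifs <;> simp)
      map_smul' := fun r a => Subtype.ext (funext fun v => by
        show dite _ _ _ = _
        simp only [RingHom.id_apply, SetLike.val_smul, Pi.smul_apply]
        split_ifs <;> simp)
      invFun := fun φ => ⟨fun v => φ.1 v.1, fun c v => φ.2.1 c v.1⟩
      left_inv := fun φ => Subtype.ext (funext fun v => dif_pos v.2)
      right_inv := fun φ => Subtype.ext (funext fun v => ?_) }
  · by_cases hv : v ∈ T
    · show (if h : c • v ∈ T then φ.1 ⟨c • v, h⟩ else 0) =
        ρ c (if h : v ∈ T then φ.1 ⟨v, h⟩ else 0)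
      rw [dif_pos hv, dif_pos (hT c v hv), ← φ.2 c ⟨v, hv⟩]
      rfl
    · show (if h : c • v ∈ T then φ.1 ⟨c • v, h⟩ else 0) =
        ρ c (if h : v ∈ T then φ.1 ⟨v, h⟩ else 0)
      rw [dif_neg hv, dif_neg fun h => hv ((hTc c v).mp h), map_zero]
  · simp only [SetLike.mem_coe, Submodule.mem_iInf, LinearMap.mem_ker, LinearMap.proj_apply]
    exact fun v hv => dif_neg hv
  · by_cases hv : v ∈ T
    · exact dif_pos hv
    · have h2 := φ.2.2
      simp only [SetLike.mem_coe, Submodule.mem_iInf, LinearMap.mem_ker, LinearMap.proj_apply] at h2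
      show (if h : v ∈ T then φ.1 v else 0) = φ.1 v
      rw [dif_neg hv, h2 v hv]

end subset

end FLTAgent.TW
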