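import Fermat.Agent.TW.ClassCount
import Fermat.Agent.TW.PlaceActions

/-!
# An equivariant map `ℤ[∞] → units` with finite cokernel and a rank one trivial kernel

In each column the attached unit has negative logarithm off the diagonal; averaging over the group
makes the choice equivariant, and the product formula forces all kernel vectors to have constant
sign.
-/

set_option autoImplicit false
set_option linter.unusedSectionVars false

open IsDedekindDomain NumberField
open scoped Pointwise

noncomputable section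

namespace FLTAgent.TW

/-- A matrix with zero column sums and negative off-diagonal entries only kills vectors of
constant sign. -/
theorem pos_of_sum_eq_zero {ι : Type} [Fintype ι] (M : ι → ι → ℝ)
    (hcol : ∀ j, ∑ i, M i j = 0) (hoff : ∀ i j, i ≠ j → M i j < 0) (n : ι → ℤ)
    (hn : ∀ i, ∑ j, (n j : ℝ) * M i j = 0) {j₀ : ι} (hj₀ : 0 < n j₀) (j : ι) : 0 < n j := by
  classical
  by_contra hj
  set P := Finset.univ.filter fun i => 0 < n i with hP
  have h0 : ∑ i ∈ P, ∑ l, (n l : ℝ) * M i l = 0 := Finset.sum_eq_zero fun i _ => hn i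
  rw [Finset.sum_comm] at h0
  have hpos : 0 < ∑ l, ∑ i ∈ P, (n l : ℝ) * M i l := by
    refine Finset.sum_pos' (fun l _ => ?_) ⟨j₀, Finset.mem_univ _, ?_⟩
    · rw [← Finset.mul_sum]
      by_cases hl : l ∈ P
      · refine mul_nonneg (Int.cast_nonneg (Finset.mem_filter.mp hl).2.le) ?_
        have h := hcol l
        rw [← Finset.sum_add_sum_compl P] at h
        have : ∑ i ∈ Pᶜ, M i l ≤ 0 := Finset.sum_nonpos fun i hi =>
          (hoff i l fun h => Finset.mem_compl.mp hi (h ▸ hl)).le
        linarith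
      · have h1 : n l ≤ 0 := not_lt.mp fun h => hl (Finset.mem_filter.mpr ⟨Finset.mem_univ _, h⟩)
        exact mul_nonneg_of_nonpos_of_nonpos (Int.cast_nonpos.mpr h1)
          (Finset.sum_nonpos fun i hi => (hoff i l fun h => hl (h ▸ hi)).le)
    · rw [← Finset.mul_sum]
      refine mul_pos (Int.cast_pos.mpr hj₀) ?_
      have hl : j₀ ∈ P := Finset.mem_filter.mpr ⟨Finset.mem_univ _, hj₀⟩
      have hne : j ∈ Pᶜ := Finset.mem_compl.mpr fun h => hj (Finset.mem_filter.mp h).2
      have h := hcol j₀
      rw [← Finset.sum_add_sum_compl P] at h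
      have : ∑ i ∈ Pᶜ, M i j₀ < 0 := Finset.sum_neg (fun i hi =>
        hoff i j₀ fun h => Finset.mem_compl.mp hi (h ▸ hl)) ⟨j, hne⟩
      linarith
  linarith

/-- A finitely generated group is finite modulo a subgroup of the same rank. -/
theorem finite_quotient_of_finrank_eq {M : Type} [AddCommGroup M] [Module.Finite ℤ M]
    (N : Submodule ℤ M) (h : Module.finrank ℤ N = Module.finrank ℤ M) : Finite (M ⧸ N) := by
  have h1 := Submodule.finrank_quotient_add_finrank N
  have h0 : Module.finrank ℤ (M ⧸ N) = 0 := by omega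
  have : Module.IsTorsion ℤ (M ⧸ N) := Module.finrank_eq_zero_iff_isTorsion.mp h0
  exact Module.finite_of_fg_torsion (M ⧸ N) this

variable {p : ℕ} [hpf : Fact p.Prime]

namespace KField

variable (S : KField p)

/-- The units of `K`, as the `∅`-units. -/
abbrev units₀ : AddSubgroup (Additive S.Kˣ) := S.unitsT ((∅ : Finset (Ext.Place S.K)) : Set _)

theorem isStable_empty : S.IsStable ((∅ : Finset (Ext.Place S.K)) : Set (Ext.Place S.K)) :=
  fun c v hv => by simp at hv

/-- The action on the units of `K`. -/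
abbrev units₀Act : S.C →* AddMonoid.End S.units₀ := unitsTAct S.isStable_empty

/-- A unit of the ring of integers as an element of `units₀`. -/
def ofUnit (u : (𝓞 S.K)ˣ) : S.units₀ :=
  ⟨Additive.ofMul (Units.map (algebraMap (𝓞 S.K) S.K).toMonoidHom u),
    S.mem_unitsT.mpr fun v _ => (Ext.valuation_eq_one_iff_ord v (Units.ne_zero _)).mp
      (Ext.valuation_algebraMap_unit v u)⟩

/-- The logarithm of the absolute value at an infinite place. -/
def logAt (w : InfinitePlace S.K) : S.units₀ →+ ℝ :=
  AddMonoidHom.mk' (fun a => Real.log (w ((Additive.toMul (a : Additive S.Kˣ) : S.Kˣ) : S.K)))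
    fun a b => by
      show Real.log (w ((Additive.toMul ((a : Additive S.Kˣ) + b) : S.Kˣ) : S.K)) = _
      rw [toMul_add, Units.val_mul, map_mul,
        Real.log_mul (map_ne_zero w |>.mpr (Units.ne_zero _))
          (map_ne_zero w |>.mpr (Units.ne_zero _))]

theorem sum_mult_mul_logAt (a : S.units₀) :
    ∑ w : InfinitePlace S.K, (w.mult : ℝ) * S.logAt w a = 0 := by
  obtain ⟨u, hu⟩ := Ext.mem_range_units_of_forall_ord_eq_zero
    (x := Additive.toMul (a : Additive S.Kˣ))
    fun v => S.mem_unitsT.mp a.2 v (by simp)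
  refine Eq.trans (Finset.sum_congr rfl fun w _ => ?_) (Units.sum_mult_mul_log u)
  show (w.mult : ℝ) * Real.log (w ((Additive.toMul (a : Additive S.Kˣ) : S.Kˣ) : S.K)) = _
  rw [← hu]
  rfl

theorem logAt_act (c : S.C) (w : InfinitePlace S.K) (a : S.units₀) :
    S.logAt w (S.units₀Act c a) = S.logAt (c⁻¹ • w) a := by
  show Real.log (w (S.act c _)) = Real.log ((c⁻¹ • w) _)
  congr 1
  conv_lhs => rw [← smul_inv_smul c w]
  exact S.infinitePlace_smul_apply c _ _

/-- A unit with negative logarithm at all places except `w`. -/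
def seedUnit (w : InfinitePlace S.K) : S.units₀ :=
  S.ofUnit (Units.dirichletUnitTheorem.exists_unit S.K w).choose

theorem logAt_seedUnit_neg {w w' : InfinitePlace S.K} (h : w' ≠ w) :
    S.logAt w' (S.seedUnit w) < 0 :=
  (Units.dirichletUnitTheorem.exists_unit S.K w).choose_spec _ h

/-- The unit attached to an infinite place, equivariantly. -/
def placeUnit (w : InfinitePlace S.K) : S.units₀ :=
  ∑ c : S.C, S.units₀Act c (S.seedUnit (c⁻¹ • w))

theorem placeUnit_smul (d : S.C) (w : InfinitePlace S.K) :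
    S.placeUnit (d • w) = S.units₀Act d (S.placeUnit w) := by
  rw [placeUnit, placeUnit, map_sum]
  refine (Fintype.sum_equiv (Equiv.mulLeft d) _ _ fun c => ?_).symm
  show S.units₀Act d (S.units₀Act c (S.seedUnit (c⁻¹ • w))) =
    S.units₀Act (d * c) (S.seedUnit ((d * c)⁻¹ • d • w))
  rw [show (d * c)⁻¹ • d • w = c⁻¹ • w by
      rw [← mul_smul, mul_inv_rev, inv_mul_cancel_right], map_mul (units₀Act S)]
  rfl

theorem logAt_placeUnit_neg {w w' : InfinitePlace S.K} (h : w' ≠ w) :
    S.logAt w' (S.placeUnit w) < 0 := by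
  rw [placeUnit, map_sum]
  refine Finset.sum_neg (fun c _ => ?_) ⟨1, Finset.mem_univ _⟩
  rw [logAt_act]
  exact S.logAt_seedUnit_neg fun h' => h (MulAction.injective c⁻¹ h')

/-- The equivariant map `ℤ[∞] → units`. -/
def placeUnitHom : (InfinitePlace S.K → ℤ) →+ S.units₀ :=
  AddMonoidHom.mk' (fun n => ∑ w, n w • S.placeUnit w) fun n m => by
    rw [← Finset.sum_add_distrib]
    exact Finset.sum_congr rfl fun w _ => add_zsmul _ _ _

theorem placeUnitHom_equivariant (c : S.C) (n : InfinitePlace S.K → ℤ) :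
    S.placeUnitHom (funAct (C := S.C) (InfinitePlace S.K) c n) =
      S.units₀Act c (S.placeUnitHom n) := by
  show ∑ w, n (c⁻¹ • w) • S.placeUnit w = S.units₀Act c (∑ w, n w • S.placeUnit w)
  rw [map_sum]
  refine Fintype.sum_equiv (MulAction.toPerm c⁻¹) _ _ fun w => ?_
  show n (c⁻¹ • w) • S.placeUnit w = S.units₀Act c (n (c⁻¹ • w) • S.placeUnit (c⁻¹ • w))
  rw [map_zsmul, ← placeUnit_smul, smul_inv_smul]

theorem pos_of_placeUnitHom_eq_zero {n : InfinitePlace S.K → ℤ} (h : S.placeUnitHom n = 0)
    {w₀ : InfinitePlace S.K} (h₀ : 0 < n w₀) (w : InfinitePlace S.K) : 0 < n w := by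
  refine pos_of_sum_eq_zero (fun i j => (i.mult : ℝ) * S.logAt i (S.placeUnit j))
    (fun j => S.sum_mult_mul_logAt _)
    (fun i j hij => mul_neg_of_pos_of_neg (by exact_mod_cast InfinitePlace.mult_pos)
      (S.logAt_placeUnit_neg hij)) n (fun i => ?_) h₀ w
  have h1 := congrArg (S.logAt i) h
  rw [map_zero] at h1
  change S.logAt i (∑ w, n w • S.placeUnit w) = 0 at h1
  simp only [map_sum, map_zsmul, zsmul_eq_mul] at h1
  calc ∑ j, (n j : ℝ) * ((i.mult : ℝ) * S.logAt i (S.placeUnit j))
      = (i.mult : ℝ) * ∑ j, (n j : ℝ) * S.logAt i (S.placeUnit j) := by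
        rw [Finset.mul_sum]
        exact Finset.sum_congr rfl fun j _ => by ring
    _ = 0 := by rw [h1, mul_zero]

theorem placeUnitHom_ker_eq_zero {n : InfinitePlace S.K → ℤ} (h : S.placeUnitHom n = 0)
    {w₀ : InfinitePlace S.K} (h₀ : n w₀ = 0) : n = 0 := by
  funext w
  rcases lt_trichotomy (n w) 0 with hw | hw | hw
  · have h' : S.placeUnitHom (-n) = 0 := by rw [map_neg, h, neg_zero]
    have := S.pos_of_placeUnitHom_eq_zero h' (w₀ := w) (by simpa using hw) w₀
    simp [h₀] at this
  · exact hw
  · exact absurd (S.pos_of_placeUnitHom_eq_zero h hw w₀) (by simp [h₀])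

/-- The group acts trivially on the kernel. -/
theorem funAct_eq_of_placeUnitHom {n : InfinitePlace S.K → ℤ} (h : S.placeUnitHom n = 0)
    (c : S.C) : funAct (C := S.C) (InfinitePlace S.K) c n = n := by
  set d := funAct (C := S.C) (InfinitePlace S.K) c n - n with hd
  have hd0 : S.placeUnitHom d = 0 := by
    rw [hd, map_sub, placeUnitHom_equivariant, h, map_zero, sub_zero]
  have hsum : ∑ w, d w = 0 := by
    simp only [hd, Pi.sub_apply, Finset.sum_sub_distrib]
    show ∑ w, n (c⁻¹ • w) - ∑ w, n w = 0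
    rw [show ∑ w, n (c⁻¹ • w) = ∑ w, n w from
      Fintype.sum_equiv (MulAction.toPerm c⁻¹) _ _ fun _ => rfl, sub_self]
  have key : ∀ m : InfinitePlace S.K → ℤ, S.placeUnitHom m = 0 → (∑ w, m w = 0) →
      ∀ w, ¬ 0 < m w := fun m hm hs w hw =>
    absurd hs (Finset.sum_pos (fun w' _ => S.pos_of_placeUnitHom_eq_zero hm hw w')
      ⟨w, Finset.mem_univ _⟩).ne'
  rw [← sub_eq_zero]
  funext w
  refine le_antisymm (not_lt.mp (key d hd0 hsum w)) (not_lt.mp fun hw => ?_)
  exact key (-d) (by rw [map_neg, hd0, neg_zero]) (by simp [hsum]) w (by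
    show 0 < -d w
    change d w < 0 at hw
    omega)

theorem finrank_units₀ : Module.finrank ℤ S.units₀ = Units.rank S.K := by
  let e : Additive (Ext.sUnits ((∅ : Finset (Ext.Place S.K)) : Set (Ext.Place S.K))) ≃+ S.units₀ :=
    { toFun := fun u => ⟨Additive.ofMul (Additive.toMul u).1, S.mem_unitsT.mpr (Additive.toMul u).2⟩
      invFun := fun a => Additive.ofMul ⟨Additive.toMul a.1, S.mem_unitsT.mp a.2⟩
      left_inv := fun _ => rfl
      right_inv := fun _ => rfl
      map_add' := fun _ _ => rfl }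
  rw [← e.toIntLinearEquiv.finrank_eq, Ext.finrank_sUnits]
  simp

instance finite_units₀ : Module.Finite ℤ S.units₀ := Module.Finite.iff_addGroup_fg.mpr inferInstance

theorem finrank_placeUnitHom :
    Module.finrank ℤ (LinearMap.ker S.placeUnitHom.toIntLinearMap) = 1 ∧
    Module.finrank ℤ (LinearMap.range S.placeUnitHom.toIntLinearMap) =
      Module.finrank ℤ S.units₀ := by
  set F := S.placeUnitHom.toIntLinearMap
  have hsum := Submodule.finrank_quotient_add_finrank (LinearMap.ker F)
  rw [F.quotKerEquivRange.finrank_eq] at hsum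
  rw [Module.finrank_pi] at hsum
  obtain ⟨w₀⟩ := (inferInstance : Nonempty (InfinitePlace S.K))
  have hker : Module.finrank ℤ (LinearMap.ker F) ≤ 1 := by
    have hinj : Function.Injective
        ((LinearMap.proj w₀ : (InfinitePlace S.K → ℤ) →ₗ[ℤ] ℤ).comp (LinearMap.ker F).subtype) :=
      (injective_iff_map_eq_zero _).mpr fun n hn =>
        Subtype.ext (S.placeUnitHom_ker_eq_zero (LinearMap.mem_ker.mp n.2) hn)
    exact (LinearMap.finrank_le_finrank_of_injective hinj).trans_eq (Module.finrank_self ℤ)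
  have hrange : Module.finrank ℤ (LinearMap.range F) ≤ Module.finrank ℤ S.units₀ :=
    Submodule.finrank_le _
  have hcard : 0 < Fintype.card (InfinitePlace S.K) := Fintype.card_pos
  rw [finrank_units₀, Units.rank] at hrange ⊢
  omega

instance finite_coker_placeUnitHom : Finite (S.units₀ ⧸ S.placeUnitHom.range) := by
  have h := finite_quotient_of_finrank_eq _ S.finrank_placeUnitHom.2
  exact h

end KField

end FLTAgent.TW
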