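import Fermat.Agent.TW.Counts.UnitRank
import Fermat.Agent.TW.Counts.Perm

/-!
# The count of the `T`-units
-/

set_option autoImplicit false
set_option linter.unusedSectionVars false

open IsDedekindDomain NumberField
open scoped Pointwise

noncomputable section

namespace FLTAgent.TW.KField

variable {p : ℕ} [Fact p.Prime] (S : KField p)
variable {k : Type} [Field k] [Algebra (ZMod p) k]
variable {W : Type} [AddCommGroup W] [Module k W] [Module (ZMod p) W] [IsScalarTower (ZMod p) k W]
  [Finite W] {ρ : Representation k S.C W}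

/-- `ξ` of the units. -/
theorem xi_units₀ (hρ : IsRelProj ρ) :
    xi (p := p) ρ S.units₀Act + Module.finrank k ρ.invariants =
      Module.finrank k (eqFun ρ (InfinitePlace S.K)) := by
  set F := S.placeUnitHom with hF
  have hK : ∀ c, ∀ n ∈ F.ker, funAct (C := S.C) (InfinitePlace S.K) c n ∈ F.ker := fun c n hn => by
    rw [AddMonoidHom.mem_ker] at hn ⊢
    rw [hF, placeUnitHom_equivariant, ← hF, hn, map_zero]
  have hR : ∀ c, ∀ a ∈ F.range, S.units₀Act c a ∈ F.range := by
    rintro c _ ⟨n, rfl⟩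
    exact ⟨_, S.placeUnitHom_equivariant c n⟩
  have hfgA : AddGroup.FG F.ker :=
    Module.Finite.iff_addGroup_fg.mp
      (inferInstance : Module.Finite ℤ (LinearMap.ker F.toIntLinearMap))
  have hfgB : AddGroup.FG (InfinitePlace S.K → ℤ) := Module.Finite.iff_addGroup_fg.mp inferInstance
  have hfgU : AddGroup.FG S.units₀ := Module.Finite.iff_addGroup_fg.mp inferInstance
  have hfgD : AddGroup.FG F.range := AddGroup.fg_range F
  have h1 := xi_eq_add (p := p) (α := subAct (funAct (C := S.C) (InfinitePlace S.K)) F.ker hK)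
    (δ := subAct S.units₀Act F.range hR) hρ F.ker.subtype F.rangeRestrict (fun _ _ => rfl)
    (fun c n => Subtype.ext (S.placeUnitHom_equivariant c n)) Subtype.val_injective
    F.rangeRestrict_surjective (fun n => by
      refine ⟨fun h => ⟨⟨n, congrArg Subtype.val h⟩, rfl⟩, ?_⟩
      rintro ⟨u, rfl⟩
      exact Subtype.ext u.2) xiFin_of_fg xiFin_of_fg xiFin_of_fg
  -- the image is isogenous to the units
  have h2 : xi (p := p) ρ (subAct S.units₀Act F.range hR) = xi (p := p) ρ S.units₀Act := by
    have : Finite (F.range.subtype).ker := by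
      rw [(AddMonoidHom.ker_eq_bot_iff _).mpr Subtype.val_injective]; infer_instance
    have : Finite (S.units₀ ⧸ (F.range.subtype).range) := by
      rw [AddSubgroup.range_subtype]; exact S.finite_coker_placeUnitHom
    exact xi_eq_of_isogeny hρ F.range.subtype fun _ _ => rfl
  -- the kernel is a trivial lattice of rank one
  obtain ⟨w₀⟩ := (inferInstance : Nonempty (InfinitePlace S.K))
  let ev : F.ker →+ ℤ := (Pi.evalAddMonoidHom (fun _ : InfinitePlace S.K => ℤ) w₀).comp F.ker.subtype
  have hev : Function.Injective ev := (injective_iff_map_eq_zero _).mpr fun n hn =>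
    Subtype.ext (S.placeUnitHom_ker_eq_zero (AddMonoidHom.mem_ker.mp n.2) hn)
  have : Finite ev.ker := by rw [(AddMonoidHom.ker_eq_bot_iff _).mpr hev]; infer_instance
  have hne : ev ≠ 0 := fun h => by
    have hone := S.finrank_placeUnitHom.1
    have : Subsingleton (LinearMap.ker F.toIntLinearMap) :=
      ⟨fun a b => hev (show ev ⟨a.1, a.2⟩ = ev ⟨b.1, b.2⟩ by rw [h]; rfl) |> fun e =>
        Subtype.ext (congrArg Subtype.val e :)⟩
    rw [Module.finrank_zero_of_subsingleton] at hone
    exact absurd hone zero_ne_one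
  have h3 : xi (p := p) ρ (subAct (funAct (C := S.C) (InfinitePlace S.K)) F.ker hK) =
      Module.finrank k ρ.invariants := xi_eq_invariants hρ ev (fun c n => by
    show funAct (C := S.C) (InfinitePlace S.K) c n.1 w₀ = n.1 w₀
    rw [S.funAct_eq_of_placeUnitHom (AddMonoidHom.mem_ker.mp n.2) c]) hne
  rw [xi_funAct, h2, h3] at h1
  omega

/-- The count of the `p`-torsion of the `T`-units. -/
theorem cnt_torP_unitsT (T : Finset (Ext.Place S.K))
    (hT : S.IsStable (T : Set (Ext.Place S.K))) :
    cnt ρ (torPRep p (unitsTAct hT)) = Module.finrank k (twistRep S.eps ρ).invariants := by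
  have : NeZero p := ⟨(Fact.out : p.Prime).ne_zero⟩
  let ζu : S.Kˣ := Units.mk0 S.ζ (S.hζ.ne_zero (NeZero.ne p))
  have hζp : ζu ^ p = 1 := Units.ext S.hζ.pow_eq_one
  have hmem : ∀ n : ℕ, Additive.ofMul (ζu ^ n) ∈ S.unitsT (T : Set (Ext.Place S.K)) := fun n =>
    S.mem_unitsT.mpr fun v _ => by
      rw [Units.val_pow_eq_pow_val, Ext.ord_pow, (Ext.valuation_eq_one_iff_ord v ζu.ne_zero).mp
        (Ext.valuation_root_eq_one S.hζ v), mul_zero]
  have htors : ∀ n : ℕ,
      p • (⟨Additive.ofMul (ζu ^ n), hmem n⟩ : S.unitsT (T : Set (Ext.Place S.K))) = 0 := fun n =>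
    Subtype.ext (show Additive.ofMul ((ζu ^ n) ^ p) = 0 by
      rw [← pow_mul, mul_comm, pow_mul, hζp, one_pow]; rfl)
  let g : (Pt S.C → ZMod p) →+ TorP p (S.unitsT (T : Set (Ext.Place S.K))) :=
    AddMonoidHom.mk' (fun a => ⟨⟨Additive.ofMul (ζu ^ (a (Pt.mk : Pt S.C)).val), hmem _⟩, htors _⟩)
      fun a b => ofTorP_injective p (Subtype.ext (by
        show Additive.ofMul (ζu ^ ((a + b) (Pt.mk : Pt S.C)).val) =
          Additive.ofMul (ζu ^ (a (Pt.mk : Pt S.C)).val * ζu ^ (b (Pt.mk : Pt S.C)).val)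
        rw [← pow_add, Pi.add_apply, ZMod.val_add, ← pow_eq_pow_mod _ hζp]))
  have hbij : Function.Bijective g := by
    refine ⟨fun a b h => funext fun i => ?_, fun x => ?_⟩
    · have h' : ζu ^ (a (Pt.mk : Pt S.C)).val = ζu ^ (b (Pt.mk : Pt S.C)).val :=
        congrArg (fun y : TorP p (S.unitsT (T : Set (Ext.Place S.K))) =>
          Additive.toMul ((ofTorP p y : S.unitsT (T : Set (Ext.Place S.K))) : Additive S.Kˣ)) h
      have h'' := congrArg Units.val h'
      rw [Units.val_pow_eq_pow_val, Units.val_pow_eq_pow_val] at h''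
      exact ZMod.val_injective p (S.hζ.pow_inj (ZMod.val_lt _) (ZMod.val_lt _) h'')
    · have hx := congrArg Subtype.val (nsmul_ofTorP p x)
      set u : S.Kˣ :=
        Additive.toMul ((ofTorP p x : S.unitsT (T : Set (Ext.Place S.K))) : Additive S.Kˣ)
      have hu : (u : S.K) ^ p = 1 := by
        have := congrArg (fun z : Additive S.Kˣ => ((Additive.toMul z : S.Kˣ) : S.K)) hx
        simpa using this
      obtain ⟨i, hi, hiu⟩ := S.hζ.eq_pow_of_pow_eq_one hu
      refine ⟨fun _ => (i : ZMod p), ofTorP_injective p (Subtype.ext ?_)⟩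
      show Additive.ofMul (ζu ^ ((i : ZMod p)).val) = _
      rw [ZMod.val_cast_of_lt hi]
      exact congrArg Additive.ofMul
        (Units.ext (by rw [Units.val_pow_eq_pow_val]; exact hiu) : ζu ^ i = u)
  rw [← finrank_eqFun_pt, ← cnt_funRep (p := p),
    ← cnt_twist (ρ := ρ) (σ := funRep p (Pt S.C)) (σ' := twistRep S.eps (funRep p (Pt S.C)))
      (ρ' := twistRep S.eps ρ) S.eps (fun c x => by rw [twistRep_apply]; simp)
      fun c w => by rw [twistRep_apply, algebraMap_smul]]
  refine (cnt_congr (LinearEquiv.ofBijective (AddMonoidHom.toZModLinearMap p g) hbij)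
    fun c a => ofTorP_injective p (Subtype.ext ?_)).symm
  have hz : Units.map (S.act c).toRingHom.toMonoidHom ζu = ζu ^ (S.eps c : ZMod p).val :=
    Units.ext (S.act_zeta' c)
  show Additive.ofMul (ζu ^ (twistRep S.eps (funRep p (Pt S.C)) c a (Pt.mk : Pt S.C)).val) =
    Additive.ofMul (Units.map (S.act c).toRingHom.toMonoidHom (ζu ^ (a (Pt.mk : Pt S.C)).val))
  refine congrArg Additive.ofMul ?_
  rw [map_pow, hz, ← pow_mul, pow_eq_pow_mod ((S.eps c : ZMod p).val * _) hζp, ← ZMod.val_mul,
    twistRep_apply]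
  rfl

/-- **Count of the `T`-units.** -/
theorem cnt_units (hρ : IsRelProj ρ) (T : Finset (Ext.Place S.K))
    (hT : S.IsStable (T : Set (Ext.Place S.K))) :
    cnt ρ (modPRep p (unitsTAct hT)) + Module.finrank k ρ.invariants =
      Module.finrank k (eqFun ρ (InfinitePlace S.K)) +
      Module.finrank k ↥(eqFun ρ (Ext.Place S.K) ⊓
        ⨅ v ∈ (T : Set (Ext.Place S.K))ᶜ, LinearMap.ker (LinearMap.proj v)) +
      Module.finrank k (twistRep S.eps ρ).invariants := by
  classical
  let := subsetAction (T : Set (Ext.Place S.K)) hT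
  let U := S.unitsT (T : Set (Ext.Place S.K))
  let g : U →+ (↥(T : Set (Ext.Place S.K)) → ℤ) :=
    AddMonoidHom.mk' (fun a v => Ext.ordHom v.1 (a : Additive S.Kˣ)) fun a b =>
      funext fun v => map_add (Ext.ordHom v.1) (a : Additive S.Kˣ) (b : Additive S.Kˣ)
  have hg : ∀ c a, g (unitsTAct hT c a) = funAct (C := S.C) (T : Set (Ext.Place S.K)) c (g a) := by
    intro c a
    funext v
    show Ext.ord v.1 (S.act c _) = Ext.ord (c⁻¹ • v.1) _
    conv_lhs => rw [← smul_inv_smul c v.1]
    exact S.ord_smul c _ _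
  let i : S.units₀ →+ U :=
    AddMonoidHom.mk' (fun a => ⟨a, S.mem_unitsT.mpr fun v _ => S.mem_unitsT.mp a.2 v (by simp)⟩)
      fun _ _ => rfl
  have hR : ∀ c, ∀ y ∈ g.range, funAct (C := S.C) (T : Set (Ext.Place S.K)) c y ∈ g.range := by
    rintro c _ ⟨a, rfl⟩
    exact ⟨_, hg c a⟩
  have hfgT : AddGroup.FG (↥(T : Set (Ext.Place S.K)) → ℤ) :=
    Module.Finite.iff_addGroup_fg.mp inferInstance
  have hfgD : AddGroup.FG g.range := AddGroup.fg_range g
  have hfgU₀ : AddGroup.FG S.units₀ := Module.Finite.iff_addGroup_fg.mp inferInstance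
  have h1 := xi_eq_add (p := p) (α := S.units₀Act) (β := unitsTAct hT)
    (δ := subAct (funAct (C := S.C) (T : Set (Ext.Place S.K))) g.range hR) hρ i g.rangeRestrict
    (fun _ _ => rfl) (fun c a => Subtype.ext (hg c a))
    (fun a b h => Subtype.ext (congrArg (fun y : U => (y : Additive S.Kˣ)) h))
    g.rangeRestrict_surjective (fun a => by
      constructor
      · intro h
        have h0 : ∀ v ∈ (T : Set (Ext.Place S.K)),
            Ext.ord v ((Additive.toMul (a : Additive S.Kˣ) : S.Kˣ) : S.K) = 0 :=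
          fun v hv => congrFun (congrArg Subtype.val h) ⟨v, hv⟩
        refine ⟨⟨a, S.mem_unitsT.mpr fun v _ => ?_⟩, rfl⟩
        by_cases hv : v ∈ (T : Set (Ext.Place S.K))
        · exact h0 v hv
        · exact S.mem_unitsT.mp a.2 v hv
      · rintro ⟨b, rfl⟩
        exact Subtype.ext (funext fun v => S.mem_unitsT.mp b.2 v.1 (by simp)))
    xiFin_of_fg xiFin_of_fg xiFin_of_fg
  -- the divisors are isogenous to the permutation lattice
  have : Finite (g.range.subtype).ker := by
    rw [(AddMonoidHom.ker_eq_bot_iff _).mpr Subtype.val_injective]; infer_instance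
  have : Finite ((↥(T : Set (Ext.Place S.K)) → ℤ) ⧸ (g.range.subtype).range) := by
    rw [AddSubgroup.range_subtype]
    refine AddCommGroup.finite_of_fg_isAddTorsion _ fun x => ?_
    rw [isOfFinAddOrder_iff_nsmul_eq_zero]
    refine ⟨classNumber S.K, Fintype.card_pos, ?_⟩
    induction x using QuotientAddGroup.induction_on with
    | H y =>
      rw [← QuotientAddGroup.mk_nsmul, QuotientAddGroup.eq_zero_iff]
      have hsingle : ∀ v : (T : Set (Ext.Place S.K)),
          Pi.single v (classNumber S.K : ℤ) ∈ g.range := fun v => by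
        obtain ⟨x, hx, hx'⟩ := Ext.exists_ord_eq_classNumber v.1
        refine ⟨⟨Additive.ofMul x, S.mem_unitsT.mpr fun w hw =>
          hx' w fun h => hw (h ▸ v.2)⟩, funext fun w => ?_⟩
        show Ext.ord w.1 (x : S.K) = _
        by_cases h : w = v
        · subst h; rw [Pi.single_eq_same]; exact hx
        · rw [Pi.single_eq_of_ne h]; exact hx' w.1 fun e => h (Subtype.ext e)
      rw [show classNumber S.K • y = ∑ v, y v • Pi.single v (classNumber S.K : ℤ) from
        funext fun w => by
          rw [Finset.sum_apply, Finset.sum_eq_single w (fun v _ hv => by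
            rw [Pi.smul_apply, Pi.single_eq_of_ne hv.symm, smul_zero]) (fun h => absurd (Finset.mem_univ w) h)]
          simp [mul_comm]]
      exact sum_mem fun v _ => zsmul_mem (hsingle v) _
  have h2 := xi_eq_of_isogeny (p := p) (α := subAct (funAct (C := S.C) (T : Set (Ext.Place S.K)))
    g.range hR) (β := funAct (C := S.C) (T : Set (Ext.Place S.K))) hρ g.range.subtype fun _ _ => rfl
  rw [h2, xi_funAct, finrank_eqFun_subset (ρ := ρ) (T : Set (Ext.Place S.K)) hT, xi,
    cnt_torP_unitsT] at h1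
  have h3 := S.xi_units₀ (ρ := ρ) hρ
  omega

end FLTAgent.TW.KField
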